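import Mathlib
import Fermat.Prelude.Def_GaloisRep_Adic

set_option autoImplicit false

namespace Fermat.Agent.S53

open Module

/-- Burnside's theorem in dimension two over an algebraically closed field. -/
theorem subalgebra_eq_top_of_irreducible {K U : Type*} [Field K] [IsAlgClosed K]
    [AddCommGroup U] [Module K U] (h2 : Module.finrank K U = 2)
    (𝒜 : Subalgebra K (Module.End K U))
    (hirr : ∀ W : Submodule K U, (∀ a ∈ 𝒜, ∀ x ∈ W, a x ∈ W) → W = ⊥ ∨ W = ⊤) :
    𝒜 = ⊤ := by
  have : FiniteDimensional K U := Module.finite_of_finrank_eq_succ h2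
  have : Nontrivial U := Module.nontrivial_of_finrank_pos (R := K) (by omega)
  -- Step 1: a non-scalar element
  have h1 : ∃ T ∈ 𝒜, ∀ c : K, T ≠ c • (1 : Module.End K U) := by
    by_contra hcon
    push Not at hcon
    obtain ⟨u, hu⟩ := exists_ne (0 : U)
    rcases hirr (K ∙ u) (by
      intro a ha x hx
      obtain ⟨c, hc⟩ := hcon a ha
      rw [hc]
      simpa using Submodule.smul_mem _ c hx) with h | h
    · exact hu ((Submodule.span_singleton_eq_bot).1 h)
    · have := finrank_span_singleton (K := K) hu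
      rw [h, finrank_top, h2] at this
      omega
  obtain ⟨T, hT, hTs⟩ := h1
  obtain ⟨c, hc⟩ := Module.End.exists_eigenvalue T
  obtain ⟨w, hw⟩ := hc.exists_hasEigenvector
  have hw0 : w ≠ 0 := hw.2
  have hTw : T w = c • w := hw.apply_eq_smul
  set T' : Module.End K U := T - c • (1 : Module.End K U) with hT'
  have hT'mem : T' ∈ 𝒜 := 𝒜.sub_mem hT (𝒜.smul_mem 𝒜.one_mem c)
  have hT'w : T' w = 0 := by simp [hT', hTw]
  have hT'0 : T' ≠ 0 := fun h => hTs c (sub_eq_zero.1 h)
  obtain ⟨x0, hx0⟩ : ∃ x0, T' x0 ≠ 0 := by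
    by_contra hcon
    push Not at hcon
    exact hT'0 (LinearMap.ext hcon)
  -- `w, x0` span
  have hli : LinearIndependent K ![w, x0] := by
    rw [LinearIndependent.pair_iff]
    intro s t hst
    have h := congrArg T' hst
    rw [map_add, map_smul, map_smul, hT'w, smul_zero, zero_add, map_zero] at h
    have ht : t = 0 := (smul_eq_zero.1 h).resolve_right hx0
    rw [ht, zero_smul, add_zero] at hst
    exact ⟨(smul_eq_zero.1 hst).resolve_right hw0, ht⟩
  have hspan : Submodule.span K (Set.range ![w, x0]) = ⊤ :=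
    hli.span_eq_top_of_card_eq_finrank (by simp [h2])
  -- `𝒜 w = ⊤`
  have hA : Submodule.map (LinearMap.applyₗ w) (Subalgebra.toSubmodule 𝒜) = ⊤ := by
    rcases hirr (Submodule.map (LinearMap.applyₗ w) (Subalgebra.toSubmodule 𝒜)) (by
      rintro a ha _ ⟨A, hA, rfl⟩
      exact ⟨a * A, 𝒜.mul_mem ha hA, rfl⟩) with h | h
    · exfalso
      have : w ∈ Submodule.map (LinearMap.applyₗ w) (Subalgebra.toSubmodule 𝒜) :=
        ⟨1, 𝒜.one_mem, rfl⟩
      rw [h] at this
      exact hw0 this
    · exact h
  have hN : Submodule.map (LinearMap.applyₗ x0)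
      (Subalgebra.toSubmodule 𝒜 ⊓ LinearMap.ker (LinearMap.applyₗ w)) = ⊤ := by
    rcases hirr (Submodule.map (LinearMap.applyₗ x0)
      (Subalgebra.toSubmodule 𝒜 ⊓ LinearMap.ker (LinearMap.applyₗ w))) (by
      rintro a ha _ ⟨A, ⟨hA, hAw⟩, rfl⟩
      refine ⟨a * A, ⟨𝒜.mul_mem ha hA, ?_⟩, rfl⟩
      have hAw' : A w = 0 := hAw
      show (a * A) w = 0
      rw [Module.End.mul_apply, hAw', map_zero]) with h | h
    · exfalso
      have : T' x0 ∈ Submodule.map (LinearMap.applyₗ x0)
          (Subalgebra.toSubmodule 𝒜 ⊓ LinearMap.ker (LinearMap.applyₗ w)) :=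
        ⟨T', ⟨hT'mem, hT'w⟩, rfl⟩
      rw [h] at this
      exact hx0 this
    · exact h
  rw [eq_top_iff]
  intro S _
  obtain ⟨A, hAmem, hAw⟩ : S w ∈ Submodule.map (LinearMap.applyₗ w) (Subalgebra.toSubmodule 𝒜) := by
    rw [hA]; trivial
  obtain ⟨B, ⟨hBmem, hBw⟩, hBx⟩ : (S - A) x0 ∈ Submodule.map (LinearMap.applyₗ x0)
      (Subalgebra.toSubmodule 𝒜 ⊓ LinearMap.ker (LinearMap.applyₗ w)) := by
    rw [hN]; trivial
  have hAw' : A w = S w := hAw
  have hBw' : B w = 0 := hBw
  have hBx' : B x0 = (S - A) x0 := hBx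
  have : S = A + B := by
    apply LinearMap.ext_on_range hspan
    intro i
    fin_cases i
    · simp [hAw', hBw']
    · simp [hBx']
  rw [this]
  exact 𝒜.add_mem hAmem hBmem

open scoped TensorProduct in
/-- Burnside for an absolutely irreducible residual representation: the image spans `End`. -/
theorem span_range_eq_top {k : Type} [Field k] (rb : ResidualGaloisRep k)
    (habs : rb.IsAbsolutelyIrreducible) :
    Submodule.span k (Set.range rb.ρ) = (⊤ : Submodule k (Module.End k rb.V)) := by
  classical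
  set K := AlgebraicClosure k with hK
  set rK := rb.baseChange K with hrK
  have h2 : Module.finrank K rK.V = 2 := rK.finrank_eq
  have htop : Algebra.adjoin K (Set.range rK.ρ) = ⊤ := by
    apply subalgebra_eq_top_of_irreducible h2
    intro W hW
    exact habs W (fun σ x hx => hW _ (Algebra.subset_adjoin ⟨σ, rfl⟩) x hx)
  by_contra hne
  set W0 := Submodule.span k (Set.range rb.ρ) with hW0
  have hlt : Module.finrank k W0 < 4 := by
    have h := Submodule.finrank_lt hne
    rw [Module.finrank_linearMap k k, rb.finrank_eq] at h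
    exact h
  let β : Module.End k rb.V →ₗ[k] Module.End K (K ⊗[k] rb.V) :=
    LinearMap.baseChangeHom k K rb.V rb.V
  let bs := Module.finBasis k W0
  let v : Fin (Module.finrank k W0) → Module.End K (K ⊗[k] rb.V) := fun i => β (bs i : Module.End k rb.V)
  have hle : (⊤ : Submodule K (Module.End K (K ⊗[k] rb.V))) ≤ Submodule.span K (Set.range v) := by
    have h1 : Subalgebra.toSubmodule (Algebra.adjoin K (Set.range rK.ρ)) = ⊤ := by
      rw [htop]; rfl
    rw [← h1, Algebra.adjoin_eq_span]
    have h3 : (Submonoid.closure (Set.range rK.ρ) : Set _) = Set.range rK.ρ := by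
      rw [← MonoidHom.coe_mrange, Submonoid.closure_eq]
    rw [h3, Submodule.span_le]
    rintro _ ⟨σ, rfl⟩
    have hmem : rb.ρ σ ∈ W0 := Submodule.subset_span ⟨σ, rfl⟩
    have hrep := bs.sum_repr ⟨rb.ρ σ, hmem⟩
    have hrep' : rb.ρ σ = ∑ i, (bs.repr ⟨rb.ρ σ, hmem⟩ i) • (bs i : Module.End k rb.V) := by
      have := congrArg (Submodule.subtype W0) hrep
      rw [map_sum] at this
      simp only [map_smul, Submodule.subtype_apply] at this
      exact this.symm
    have : rK.ρ σ = β (rb.ρ σ) := rfl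
    rw [SetLike.mem_coe, this, hrep', map_sum]
    refine Submodule.sum_mem _ (fun i _ => ?_)
    rw [map_smul, ← algebraMap_smul K]
    exact Submodule.smul_mem _ _ (Submodule.subset_span ⟨i, rfl⟩)
  have hfr : Module.finrank K (Submodule.span K (Set.range v)) ≤ Module.finrank k W0 := by
    have := finrank_range_le_card (R := K) v
    simpa [Set.finrank] using this
  have h4 : Module.finrank K (Module.End K (K ⊗[k] rb.V)) = 4 := by
    rw [Module.finrank_linearMap K K]
    have : Module.finrank K (K ⊗[k] rb.V) = 2 := h2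
    rw [this]
  rw [top_le_iff] at hle
  rw [hle, finrank_top, h4] at hfr
  omega

end Fermat.Agent.S53
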