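import Mathlib
import Fermat.Prelude.Def_GaloisRep_DeformationRingData
import Fermat.Prelude.Def_GaloisRep_DeformationCondition

/-!
# S53: shared interface

* `GQ`, `M2`, `MatCont`, `ofMat` : matrix form of `GaloisRepAdic`.
* `NormData`, `IsNormLift` : rigidification (normalised lifts).
* `IsCNL`, `IsPointFunctor`, `Represents` : abstract representability interface.
-/

set_option autoImplicit false

namespace Fermat.Agent.S53

open IsLocalRing

/-- The absolute Galois group of `ℚ`. -/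
abbrev GQ : Type := AlgebraicClosure ℚ ≃ₐ[ℚ] AlgebraicClosure ℚ

/-- `2 × 2` matrices. -/
abbrev M2 (A : Type) : Type := Matrix (Fin 2) (Fin 2) A

section Mat

variable {A : Type} [CommRing A] [IsLocalRing A]

/-- Adic continuity of a matrix representation. -/
def MatCont (r : GQ →* M2 A) : Prop :=
  ∀ n : ℕ, ∃ L : IntermediateField ℚ (AlgebraicClosure ℚ), FiniteDimensional ℚ L ∧
    ∀ σ : GQ, (∀ x ∈ L, σ x = x) → ∀ i j, (r σ - 1) i j ∈ maximalIdeal A ^ n

omit [IsLocalRing A] in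
theorem mem_smul_top_pi (I : Ideal A) (w : Fin 2 → A) (hw : ∀ i, w i ∈ I) :
    w ∈ I • (⊤ : Submodule A (Fin 2 → A)) := by
  have : w = w 0 • (Pi.single 0 1 : Fin 2 → A) + w 1 • (Pi.single 1 1 : Fin 2 → A) := by
    funext i
    fin_cases i <;> simp
  rw [this]
  exact Submodule.add_mem _ (Submodule.smul_mem_smul (hw 0) Submodule.mem_top)
    (Submodule.smul_mem_smul (hw 1) Submodule.mem_top)

/-- The `GaloisRepAdic` on `A²` attached to a continuous matrix representation. -/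
noncomputable def ofMat (r : GQ →* M2 A) (hr : MatCont r) : GaloisRepAdic A where
  V := Fin 2 → A
  finrank_eq := by simp
  ρ :=
    { toFun := fun σ => Matrix.toLin' (r σ)
      map_one' := by rw [map_one, Matrix.toLin'_one]; rfl
      map_mul' := fun σ τ => by rw [map_mul, Matrix.toLin'_mul]; rfl }
  isAdicContinuous := by
    intro n
    obtain ⟨L, hL, h⟩ := hr n
    refine ⟨L, hL, fun σ hσ v => ?_⟩
    apply mem_smul_top_pi
    intro i
    have h1 : (Matrix.toLin' (r σ) v - v) i = ∑ j, (r σ - 1) i j * v j := by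
      simp [Matrix.toLin'_apply, Matrix.sub_apply, sub_mul,
        Matrix.one_apply, Fin.sum_univ_two]
      fin_cases i <;> simp
    change (Matrix.toLin' (r σ) v - v) i ∈ _
    rw [h1]
    exact Ideal.sum_mem _ fun j _ => Ideal.mul_mem_right _ _ (h σ hσ i j)

@[simp] theorem ofMat_ρ_apply (r : GQ →* M2 A) (hr : MatCont r) (σ : GQ) (v : Fin 2 → A) :
    (ofMat r hr).ρ σ v = (r σ).mulVec v := rfl

omit [IsLocalRing A] in
/-- Push a matrix representation forward along a ring hom. -/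
noncomputable def mapMat {B : Type} [CommRing B] (φ : A →+* B) (r : GQ →* M2 A) : GQ →* M2 B :=
  ((φ.mapMatrix : M2 A →+* M2 B) : M2 A →* M2 B).comp r

omit [IsLocalRing A] in
@[simp] theorem mapMat_apply {B : Type} [CommRing B] (φ : A →+* B) (r : GQ →* M2 A) (σ : GQ)
    (i j : Fin 2) : mapMat φ r σ i j = φ (r σ i j) := rfl

end Mat

section Norm

variable (𝒪 : Type) [CommRing 𝒪] [IsLocalRing 𝒪]

/-- `𝒪`-linear extension of a matrix-valued function to finitely supported `𝒪`-combinations. -/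
noncomputable def lin {A : Type} [CommRing A] [Algebra 𝒪 A] (r : GQ → M2 A) (e : GQ →₀ 𝒪) : M2 A :=
  Finsupp.linearCombination 𝒪 r e

/-- Normal form data for a residual representation: a matrix form `rbar`, an entrywise
set-theoretic lift `rt` to `𝒪`, an element `e ∈ 𝒪[G]` with `rbar(e) = E₁₁` and `g1 ∈ G` whose
lower left entry is `1`. -/
structure NormData (ρbar : ResidualGaloisRep (ResidueField 𝒪)) where
  b : Module.Basis (Fin 2) (ResidueField 𝒪) ρbar.V
  rbar : GQ →* M2 (ResidueField 𝒪)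
  rbar_eq : ∀ σ, rbar σ = LinearMap.toMatrix b b (ρbar.ρ σ)
  rt : GQ → M2 𝒪
  rt_eq : ∀ σ i j, residue 𝒪 (rt σ i j) = rbar σ i j
  e : GQ →₀ 𝒪
  he : lin 𝒪 (fun σ => rbar σ) e = !![1, 0; 0, 0]
  g1 : GQ
  hg1 : rbar g1 1 0 = 1

variable {𝒪} {ρbar : ResidualGaloisRep (ResidueField 𝒪)}

/-- Normalised lifts of `rbar` to `A`. -/
structure IsNormLift (D : NormData 𝒪 ρbar) {A : Type} [CommRing A] [IsLocalRing A] [Algebra 𝒪 A]
    (r : GQ →* M2 A) : Prop where
  cont : MatCont r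
  lifts : ∀ σ i j, r σ i j - algebraMap 𝒪 A (D.rt σ i j) ∈ maximalIdeal A
  diag01 : lin 𝒪 (fun σ => r σ) D.e 0 1 = 0
  diag10 : lin 𝒪 (fun σ => r σ) D.e 1 0 = 0
  one10 : r D.g1 1 0 = 1

end Norm

section Abstract

variable (𝒪 : Type) [CommRing 𝒪] [IsLocalRing 𝒪]

/-- The `𝒪`-algebra structure on the dual numbers used in `GaloisRep.TangentFinite`. -/
@[reducible] noncomputable def dualAlg : Algebra 𝒪 (DualNumber (ResidueField 𝒪)) :=
  ((algebraMap (ResidueField 𝒪) (DualNumber (ResidueField 𝒪))).comp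
    (algebraMap 𝒪 (ResidueField 𝒪))).toAlgebra

/-- Complete noetherian local `𝒪`-algebras with the same residue field. -/
structure IsCNL (A : Type) [CommRing A] [IsLocalRing A] [Algebra 𝒪 A] : Prop where
  isLocalHom : IsLocalHom (algebraMap 𝒪 A)
  residue_surjective : Function.Surjective (IsLocalRing.residue A ∘ algebraMap 𝒪 A)
  isNoetherianRing : IsNoetherianRing A
  isAdicComplete : IsAdicComplete (maximalIdeal A) A

/-- A sub-functor `F` of `A ↦ (ι → A)` on local `𝒪`-algebras, satisfying the closure axioms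
that make it pro-representable by a complete noetherian local ring. -/
structure IsPointFunctor {ι : Type}
    (F : ∀ ⦃A : Type⦄ [CommRing A] [IsLocalRing A] [Algebra 𝒪 A], (ι → A) → Prop) : Prop where
  map : ∀ ⦃A B : Type⦄ [CommRing A] [IsLocalRing A] [Algebra 𝒪 A]
    [CommRing B] [IsLocalRing B] [Algebra 𝒪 B],
    GaloisRep.IsArtinianTestAlgebra 𝒪 A → GaloisRep.IsArtinianTestAlgebra 𝒪 B →
    ∀ (φ : A →ₐ[𝒪] B) ⦃x : ι → A⦄, F x → F (φ ∘ x)
  of_injective : ∀ ⦃A B : Type⦄ [CommRing A] [IsLocalRing A] [Algebra 𝒪 A]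
    [CommRing B] [IsLocalRing B] [Algebra 𝒪 B],
    GaloisRep.IsArtinianTestAlgebra 𝒪 A → GaloisRep.IsArtinianTestAlgebra 𝒪 B →
    ∀ (φ : A →ₐ[𝒪] B), Function.Injective φ → ∀ ⦃x : ι → A⦄, F (φ ∘ x) → F x
  of_fibreProduct : ∀ ⦃A B C P : Type⦄ [CommRing A] [IsLocalRing A] [Algebra 𝒪 A]
    [CommRing B] [IsLocalRing B] [Algebra 𝒪 B] [CommRing C] [IsLocalRing C] [Algebra 𝒪 C]
    [CommRing P] [IsLocalRing P] [Algebra 𝒪 P],
    GaloisRep.IsArtinianTestAlgebra 𝒪 A → GaloisRep.IsArtinianTestAlgebra 𝒪 B →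
    GaloisRep.IsArtinianTestAlgebra 𝒪 C → GaloisRep.IsArtinianTestAlgebra 𝒪 P →
    ∀ (f : A →ₐ[𝒪] C) (g : B →ₐ[𝒪] C) (pA : P →ₐ[𝒪] A) (pB : P →ₐ[𝒪] B),
      f.comp pA = g.comp pB →
      Function.Injective (fun x => (pA x, pB x)) →
      (∀ a b, f a = g b → ∃ x, pA x = a ∧ pB x = b) →
      ∀ ⦃x : ι → P⦄, F (pA ∘ x) → F (pB ∘ x) → F x
  iff_forall_surjective : ∀ ⦃A : Type⦄ [CommRing A] [IsLocalRing A] [Algebra 𝒪 A],
    IsCNL 𝒪 A → ∀ (x : ι → A),
      F x ↔ ∀ ⦃B : Type⦄ [CommRing B] [IsLocalRing B] [Algebra 𝒪 B],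
        GaloisRep.IsArtinianTestAlgebra 𝒪 B →
        ∀ (q : A →ₐ[𝒪] B), Function.Surjective q → F (q ∘ x)
  residue_unique : ∀ x y : ι → ResidueField 𝒪, F x → F y → x = y
  residue_exists : ∃ x : ι → ResidueField 𝒪, F x
  tangent_finite : letI := dualAlg 𝒪
    Set.Finite {x : ι → DualNumber (ResidueField 𝒪) | F x}

/-- `(R, x)` represents `F` on complete noetherian local `𝒪`-algebras. -/
structure Represents {ι : Type}
    (F : ∀ ⦃A : Type⦄ [CommRing A] [IsLocalRing A] [Algebra 𝒪 A], (ι → A) → Prop)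
    (R : Type) [CommRing R] [IsLocalRing R] [Algebra 𝒪 R] (x : ι → R) : Prop where
  isCNL : IsCNL 𝒪 R
  mem : F x
  exists_hom : ∀ ⦃A : Type⦄ [CommRing A] [IsLocalRing A] [Algebra 𝒪 A], IsCNL 𝒪 A →
    ∀ y : ι → A, F y → ∃ φ : R →ₐ[𝒪] A, φ ∘ x = y
  hom_ext : ∀ ⦃A : Type⦄ [CommRing A] [IsLocalRing A] [Algebra 𝒪 A], IsCNL 𝒪 A →
    ∀ φ ψ : R →ₐ[𝒪] A, φ ∘ x = ψ ∘ x → φ = ψ

end Abstract

end Fermat.Agent.S53
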