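import Mathlib
import Fermat.Agent.S53.Burnside
import Fermat.Agent.S53.Defs

set_option autoImplicit false

namespace Fermat.Agent.S53

open Module

/-- Every endomorphism is a finite linear combination of the `rb.ρ g`. -/
theorem exists_finsupp_sum_eq {k : Type} [Field k] (rb : ResidualGaloisRep k)
    (habs : rb.IsAbsolutelyIrreducible) (X : Module.End k rb.V) :
    ∃ c : GQ →₀ k, (c.sum fun g a => a • rb.ρ g) = X := by
  have h : X ∈ Submodule.span k (Set.range rb.ρ) := by
    rw [span_range_eq_top rb habs]; trivial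
  exact (Finsupp.mem_span_range_iff_exists_finsupp).1 h

/-- Schur's lemma. -/
theorem schur {k : Type} [Field k] (rb : ResidualGaloisRep k)
    (habs : rb.IsAbsolutelyIrreducible) (C : Module.End k rb.V)
    (hC : ∀ σ, C * rb.ρ σ = rb.ρ σ * C) : ∃ c : k, C = c • (1 : Module.End k rb.V) := by
  classical
  have hall : ∀ X : Module.End k rb.V, C * X = X * C := by
    intro X
    have h : X ∈ Submodule.span k (Set.range rb.ρ) := by
      rw [span_range_eq_top rb habs]; trivial
    induction h using Submodule.span_induction with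
    | mem x hx => obtain ⟨σ, rfl⟩ := hx; exact hC σ
    | zero => simp
    | add x y _ _ hx hy => rw [mul_add, add_mul, hx, hy]
    | smul a x _ hx => rw [mul_smul_comm, smul_mul_assoc, hx]
  let b := Module.finBasis k rb.V
  have hM : LinearMap.toMatrix b b C ∈ Set.range (Matrix.scalar (Fin (Module.finrank k rb.V))) := by
    apply Matrix.mem_range_scalar_iff_commute_single'.mpr
    intro i j
    have h := hall (Matrix.toLin b b (Matrix.single i j 1))
    have h' := congrArg (LinearMap.toMatrix b b) h
    rw [Module.End.mul_eq_comp, Module.End.mul_eq_comp, LinearMap.toMatrix_comp b b b,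
      LinearMap.toMatrix_comp b b b, LinearMap.toMatrix_toLin] at h'
    exact h'.symm
  obtain ⟨c, hc⟩ := hM
  refine ⟨c, ?_⟩
  apply (LinearMap.toMatrix b b).injective
  rw [← hc, map_smul, LinearMap.toMatrix_one]
  ext i j
  simp [Matrix.scalar_apply, Matrix.diagonal_apply, Matrix.one_apply]

/-- Normal form data for an absolutely irreducible two-dimensional residual representation:
a basis `b`, a finitely supported family `c` with `∑ c g • ρ g = E₁₁` and an element `g1`
such that the lower left entry of `ρ g1` is `1`. -/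
theorem exists_normalForm_data {k : Type} [Field k] (rb : ResidualGaloisRep k)
    (habs : rb.IsAbsolutelyIrreducible) :
    ∃ (b : Module.Basis (Fin 2) k rb.V) (c : GQ →₀ k) (g1 : GQ),
      (c.sum fun g a => a • LinearMap.toMatrix b b (rb.ρ g)) = !![1, 0; 0, 0] ∧
      LinearMap.toMatrix b b (rb.ρ g1) 1 0 = 1 := by
  classical
  let b0 : Module.Basis (Fin 2) k rb.V :=
    (Module.finBasis k rb.V).reindex (finCongr rb.finrank_eq)
  obtain ⟨g1, hg1⟩ : ∃ g1 : GQ, LinearMap.toMatrix b0 b0 (rb.ρ g1) 1 0 ≠ 0 := by
    by_contra hcon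
    push Not at hcon
    obtain ⟨c, hc⟩ := exists_finsupp_sum_eq rb habs (Matrix.toLin b0 b0 !![0, 0; 1, 0])
    have h := congrArg (fun X => LinearMap.toMatrix b0 b0 X 1 0) hc
    simp only [LinearMap.toMatrix_toLin] at h
    rw [Finsupp.sum, map_sum, Matrix.sum_apply] at h
    simp [hcon] at h
  set a := LinearMap.toMatrix b0 b0 (rb.ρ g1) 1 0 with ha
  let u : Fin 2 → kˣ := ![1, Units.mk0 a hg1]
  let b := b0.unitsSMul u
  obtain ⟨c, hc⟩ := exists_finsupp_sum_eq rb habs (Matrix.toLin b b !![1, 0; 0, 0])
  refine ⟨b, c, g1, ?_, ?_⟩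
  · have h := congrArg (LinearMap.toMatrix b b) hc
    rw [LinearMap.toMatrix_toLin, Finsupp.sum, map_sum] at h
    simpa [Finsupp.sum] using h
  · rw [LinearMap.toMatrix_apply]
    have hb0 : b 0 = b0 0 := by simp [b, u, Module.Basis.unitsSMul_apply]
    rw [hb0]
    have : b.repr (rb.ρ g1 (b0 0)) 1 = a⁻¹ * b0.repr (rb.ρ g1 (b0 0)) 1 := by
      simp [b, u, Module.Basis.repr_unitsSMul, Units.smul_def]
    rw [this, ha, LinearMap.toMatrix_apply]
    exact inv_mul_cancel₀ (by rwa [ha, LinearMap.toMatrix_apply] at hg1)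

/-- Normal form data exist for an absolutely irreducible residual representation. -/
theorem nonempty_normData (𝒪 : Type) [CommRing 𝒪] [IsLocalRing 𝒪]
    (ρbar : ResidualGaloisRep (IsLocalRing.ResidueField 𝒪))
    (habs : ρbar.IsAbsolutelyIrreducible) : Nonempty (NormData 𝒪 ρbar) := by
  classical
  obtain ⟨b, c, g1, hc, hg1⟩ := exists_normalForm_data ρbar habs
  have hsurj := IsLocalRing.residue_surjective (R := 𝒪)
  let s : IsLocalRing.ResidueField 𝒪 → 𝒪 := fun a => if a = 0 then 0 else (hsurj a).choose
  have hs : ∀ a, IsLocalRing.residue 𝒪 (s a) = a := by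
    intro a
    by_cases ha : a = 0
    · simp [s, ha]
    · simp only [s, ha, if_false]
      exact (hsurj a).choose_spec
  have hs0 : s 0 = 0 := by simp [s]
  let rbar : GQ →* M2 (IsLocalRing.ResidueField 𝒪) :=
    { toFun := fun σ => LinearMap.toMatrix b b (ρbar.ρ σ)
      map_one' := by rw [map_one, LinearMap.toMatrix_one]
      map_mul' := fun σ τ => by
        rw [map_mul, Module.End.mul_eq_comp, LinearMap.toMatrix_comp b b b] }
  refine ⟨{ b := b, rbar := rbar, rbar_eq := fun σ => rfl, rt := fun σ i j => s (rbar σ i j),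
            rt_eq := fun σ i j => hs _, e := c.mapRange s hs0, he := ?_, g1 := g1, hg1 := hg1 }⟩
  rw [← hc, lin, Finsupp.linearCombination_apply, Finsupp.sum_mapRange_index (by simp)]
  refine Finsupp.sum_congr fun g _ => ?_
  ext i j
  simp only [Matrix.smul_apply]
  rw [Algebra.smul_def, IsLocalRing.ResidueField.algebraMap_eq, hs]
  rfl

end Fermat.Agent.S53
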