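import Mathlib
import Fermat.Prelude.Thm_IsAdicComplete_of_module_finite

set_option autoImplicit false

namespace Fermat.Agent.S53

/-- Abstract limit lemma: in an `I`-adically complete ring, a decreasing chain of ideals with
`J n = J (n+1) ⊔ I ^ n` satisfies `J n = (⨅ m, J m) ⊔ I ^ n`. -/
theorem eq_iInf_sup_pow {P : Type*} [CommRing P] (I : Ideal P) [IsAdicComplete I P]
    (J : ℕ → Ideal P) (hJ : ∀ n, J n = J (n + 1) ⊔ I ^ n) (n : ℕ) :
    J n = (⨅ m, J m) ⊔ I ^ n := by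
  have hpow : ∀ m, I ^ m ≤ J m := fun m => by rw [hJ m]; exact le_sup_right
  have hanti : Antitone J := antitone_nat_of_succ_le fun m => by rw [hJ m]; exact le_sup_left
  apply le_antisymm _ (sup_le (iInf_le _ _) (hpow n))
  intro y hy
  have step : ∀ (j : ℕ) (y' : P), y' ∈ J (n + j) → ∃ y'' ∈ J (n + j + 1), y' - y'' ∈ I ^ (n + j) := by
    intro j y' hy'
    rw [hJ (n + j)] at hy'
    obtain ⟨a, ha, b, hb, rfl⟩ := Submodule.mem_sup.1 hy'
    exact ⟨a, ha, by simpa using hb⟩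
  choose! g hg1 hg2 using step
  let Y : ℕ → P := fun j => Nat.rec y (fun j acc => g j acc) j
  have hY0 : Y 0 = y := rfl
  have hYs : ∀ j, Y (j + 1) = g j (Y j) := fun j => rfl
  have hY : ∀ j, Y j ∈ J (n + j) := by
    intro j
    induction j with
    | zero => exact hy
    | succ j ih => rw [hYs]; exact hg1 j _ ih
  have hdiff : ∀ j d, Y j - Y (j + d) ∈ I ^ (n + j) := by
    intro j d
    induction d with
    | zero => simp
    | succ d ih =>
      have h1 : Y (j + d) - Y (j + d + 1) ∈ I ^ (n + (j + d)) := by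
        rw [hYs]; exact hg2 _ _ (hY _)
      have h2 : Y (j + d) - Y (j + d + 1) ∈ I ^ (n + j) :=
        Ideal.pow_le_pow_right (by omega) h1
      have : Y j - Y (j + (d + 1)) = (Y j - Y (j + d)) + (Y (j + d) - Y (j + d + 1)) := by
        rw [← add_assoc]; ring
      rw [this]
      exact Ideal.add_mem _ ih h2
  obtain ⟨L, hL⟩ := IsPrecomplete.prec (I := I) (M := P) inferInstance (f := fun j => y - Y j) (by
    intro a b hab
    obtain ⟨d, rfl⟩ := Nat.exists_eq_add_of_le hab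
    rw [SModEq.sub_mem]
    have h := hdiff a d
    have h' : Y a - Y (a + d) ∈ I ^ a := Ideal.pow_le_pow_right (by omega) h
    have : (y - Y a) - (y - Y (a + d)) = -(Y a - Y (a + d)) := by ring
    rw [this]
    simpa using (I ^ a).neg_mem h')
  have hL' : ∀ j, y - Y j - L ∈ I ^ j := by
    intro j
    have := hL j
    rw [SModEq.sub_mem] at this
    simpa using this
  have hL'' : ∀ j, y - Y j - L ∈ I ^ (n + j) := by
    intro j
    have h1 := hL' (j + n)
    have h2 := hdiff j n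
    have : y - Y j - L = (y - Y (j + n) - L) - (Y j - Y (j + n)) := by ring
    rw [this]
    exact Ideal.sub_mem _ (by rw [add_comm n j]; exact h1) h2
  have hLn : L ∈ I ^ n := by
    have := hL'' 0
    rw [hY0] at this
    simpa using this
  refine Submodule.mem_sup.2 ⟨y - L, ?_, L, hLn, by ring⟩
  rw [Ideal.mem_iInf]
  intro m
  have h1 : y - L = Y m + (y - Y m - L) := by ring
  rw [h1]
  exact hanti (Nat.le_add_left m n) (Ideal.add_mem _ (hY m) (hpow _ (hL'' m)))

/-- Facts on the quotient of a complete noetherian ring by the intersection of such a chain. -/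
theorem quotient_iInf_facts {P : Type*} [CommRing P] [IsNoetherianRing P] (I : Ideal P)
    [IsAdicComplete I P] (J : ℕ → Ideal P) (hJ : ∀ n, J n = J (n + 1) ⊔ I ^ n)
    (hJ1 : (J 1).IsMaximal) :
    IsAdicComplete (I.map (Ideal.Quotient.mk (⨅ m, J m))) (P ⧸ (⨅ m, J m)) ∧
    (I.map (Ideal.Quotient.mk (⨅ m, J m))).IsMaximal ∧
    ∀ n, ((I.map (Ideal.Quotient.mk (⨅ m, J m))) ^ n).comap (Ideal.Quotient.mk (⨅ m, J m)) = J n := by
  have hcomap : ∀ n, ((I.map (Ideal.Quotient.mk (⨅ m, J m))) ^ n).comap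
      (Ideal.Quotient.mk (⨅ m, J m)) = J n := by
    intro n
    rw [← Ideal.map_pow, Ideal.comap_map_of_surjective' _ Ideal.Quotient.mk_surjective,
      Ideal.mk_ker, eq_iInf_sup_pow I J hJ n, sup_comm]
  refine ⟨?_, ?_, hcomap⟩
  · have h1 : IsAdicComplete I (P ⧸ (⨅ m, J m)) := IsAdicComplete.of_module_finite I _
    exact (IsAdicComplete.map_algebraMap_iff I (P ⧸ (⨅ m, J m)) (S := P ⧸ (⨅ m, J m))).2 h1
  · have h1 := hcomap 1
    rw [pow_one] at h1
    have h2 := Ideal.map_comap_of_surjective (Ideal.Quotient.mk (⨅ m, J m))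
      Ideal.Quotient.mk_surjective (I.map (Ideal.Quotient.mk (⨅ m, J m)))
    rw [h1] at h2
    rw [← h2]
    exact Ideal.IsMaximal.map_of_surjective_of_ker_le Ideal.Quotient.mk_surjective
      (by rw [Ideal.mk_ker]; exact iInf_le _ 1)

theorem ker_evalₐ_eq {S0 : Type*} [CommRing S0] (a0 : Ideal S0) (hfg : a0.FG) (n : ℕ) :
    RingHom.ker (AdicCompletion.evalₐ a0 n).toRingHom
      = (a0.map (algebraMap S0 (AdicCompletion a0 S0))) ^ n := by
  ext x
  trans x ∈ (AdicCompletion.eval a0 S0 n).ker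
  · have eq : a0 ^ n • (⊤ : Ideal S0) = a0 ^ n := by simp
    have : Function.Injective (Submodule.factor (le_of_eq eq)) := by
      intro a b hab
      obtain ⟨a, rfl⟩ := Submodule.Quotient.mk_surjective _ a
      obtain ⟨b, rfl⟩ := Submodule.Quotient.mk_surjective _ b
      have hab' : (Submodule.Quotient.mk a : S0 ⧸ a0 ^ n) = Submodule.Quotient.mk b := hab
      rw [Submodule.Quotient.eq] at hab'
      rw [Submodule.Quotient.eq, eq]
      exact hab'
    rw [RingHom.mem_ker, LinearMap.mem_ker]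
    change AdicCompletion.evalₐ a0 n x = 0 ↔ _
    rw [← AdicCompletion.factor_eval_eq_evalₐ a0 x (le_of_eq eq)]
    exact map_eq_zero_iff _ this
  · rw [← AdicCompletion.pow_smul_top_eq_ker_eval hfg, Ideal.smul_top_eq_map, Ideal.map_pow]
    rfl

theorem eq_of_forall_quotient_mk_pow_eq {A : Type*} [CommRing A] (𝔫 : Ideal A) [IsHausdorff 𝔫 A] {x y : A}
    (h : ∀ n, Ideal.Quotient.mk (𝔫 ^ n) x = Ideal.Quotient.mk (𝔫 ^ n) y) : x = y := by
  rw [IsHausdorff.eq_iff_smodEq (I := 𝔫)]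
  intro n
  rw [SModEq.sub_mem, smul_eq_mul, Ideal.mul_top]
  exact Ideal.Quotient.eq.1 (h n)

theorem exists_limitRing_aux (S0 : Type) [CommRing S0] (a0 : Ideal S0) (hfg : a0.FG)
    [IsNoetherianRing (AdicCompletion a0 S0)]
    (K : ℕ → Ideal S0) (hK : ∀ n, K n = K (n + 1) ⊔ a0 ^ n) (hK1 : (K 1).IsMaximal) :
    ∃ (R : Type) (_ : CommRing R) (_ : Algebra S0 R) (_ : IsLocalRing R)
      (_ : IsNoetherianRing R) (_ : IsAdicComplete (IsLocalRing.maximalIdeal R) R),
      IsLocalRing.maximalIdeal R = a0.map (algebraMap S0 R) ∧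
      (∀ n, ((IsLocalRing.maximalIdeal R) ^ n).comap (algebraMap S0 R) = K n) ∧
      (∀ (r : R) (n : ℕ), ∃ s, r - algebraMap S0 R s ∈ (IsLocalRing.maximalIdeal R) ^ n) ∧
      (∀ (A : Type) [CommRing A] (𝔫 : Ideal A) [IsAdicComplete 𝔫 A] (g : S0 →+* A),
          (∀ n, (K n).map g ≤ 𝔫 ^ n) → ∃ φ : R →+* A, φ.comp (algebraMap S0 R) = g) := by
  set P := AdicCompletion a0 S0 with hP
  set I : Ideal P := a0.map (algebraMap S0 P) with hI
  have : IsAdicComplete I P := AdicCompletion.isAdicComplete_self a0 hfg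
  have hpowK : ∀ n, a0 ^ n ≤ K n := fun n => by rw [hK n]; exact le_sup_right
  have hantiK : ∀ n, K (n + 1) ≤ K n := fun n => by rw [hK n]; exact le_sup_left
  let ψ : ∀ n, P →+* S0 ⧸ K n := fun n =>
    (Ideal.Quotient.factor (hpowK n)).comp (AdicCompletion.evalₐ a0 n).toRingHom
  have hψ : ∀ n s, ψ n (algebraMap S0 P s) = Ideal.Quotient.mk (K n) s := by
    intro n s
    show Ideal.Quotient.factor (hpowK n) (AdicCompletion.evalₐ a0 n (algebraMap S0 P s)) = _
    rw [AlgHom.commutes]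
    rfl
  let J : ℕ → Ideal P := fun n => RingHom.ker (ψ n)
  have hIJ : ∀ n, I ^ n ≤ J n := by
    intro n x hx
    rw [hI, ← ker_evalₐ_eq a0 hfg n, RingHom.mem_ker] at hx
    show ψ n x = 0
    show Ideal.Quotient.factor (hpowK n) ((AdicCompletion.evalₐ a0 n).toRingHom x) = 0
    rw [hx, map_zero]
  have hdense : ∀ (x : P) n, ∃ s, x - algebraMap S0 P s ∈ I ^ n := by
    intro x n
    obtain ⟨s, hs⟩ := Ideal.Quotient.mk_surjective (AdicCompletion.evalₐ a0 n x)
    refine ⟨s, ?_⟩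
    rw [hI, ← ker_evalₐ_eq a0 hfg n, RingHom.mem_ker]
    show AdicCompletion.evalₐ a0 n (x - algebraMap S0 P s) = 0
    rw [map_sub, AlgHom.commutes, ← hs]
    exact sub_self _
  have hcomapJ : ∀ n, (J n).comap (algebraMap S0 P) = K n := by
    intro n
    ext s
    rw [Ideal.mem_comap]
    show ψ n (algebraMap S0 P s) = 0 ↔ _
    rw [hψ, Ideal.Quotient.eq_zero_iff_mem]
  have hmemJ : ∀ n s, algebraMap S0 P s ∈ J n ↔ s ∈ K n := fun n s => by
    rw [← hcomapJ n, Ideal.mem_comap]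
  have hJ : ∀ n, J n = J (n + 1) ⊔ I ^ n := by
    intro n
    apply le_antisymm
    · intro y hy
      obtain ⟨s, hs⟩ := hdense y n
      have hsJ : algebraMap S0 P s ∈ J n := by
        have := (J n).sub_mem hy (hIJ n hs)
        simpa using this
      rw [hmemJ, hK n] at hsJ
      obtain ⟨k, hk, a, ha, rfl⟩ := Submodule.mem_sup.1 hsJ
      refine Submodule.mem_sup.2 ⟨algebraMap S0 P k, (hmemJ _ _).2 hk,
        algebraMap S0 P a + (y - algebraMap S0 P (k + a)), ?_, by rw [map_add]; ring⟩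
      refine Ideal.add_mem _ ?_ hs
      rw [hI, ← Ideal.map_pow]
      exact Ideal.mem_map_of_mem _ ha
    · refine sup_le ?_ (hIJ n)
      intro y hy
      obtain ⟨s, hs⟩ := hdense y (n + 1)
      have hsJ : algebraMap S0 P s ∈ J (n + 1) := by
        have := (J (n + 1)).sub_mem hy (hIJ (n + 1) hs)
        simpa using this
      rw [hmemJ] at hsJ
      have h1 : algebraMap S0 P s ∈ J n := (hmemJ _ _).2 (hantiK n hsJ)
      have h2 : y - algebraMap S0 P s ∈ J n := hIJ n (Ideal.pow_le_pow_right (Nat.le_succ n) hs)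
      have := (J n).add_mem h2 h1
      simpa using this
  have hψsurj : ∀ n, Function.Surjective (ψ n) := by
    intro n q
    obtain ⟨s, rfl⟩ := Ideal.Quotient.mk_surjective q
    exact ⟨algebraMap S0 P s, hψ n s⟩
  have hJ1 : (J 1).IsMaximal := by
    have : (⊥ : Ideal (S0 ⧸ K 1)).IsMaximal := (Ideal.bot_quotient_isMaximal_iff _).2 hK1
    have : J 1 = Ideal.comap (ψ 1) ⊥ := rfl
    rw [this]
    exact Ideal.comap_isMaximal_of_surjective _ (hψsurj 1)
  obtain ⟨hc, hm, hcomap⟩ := quotient_iInf_facts I J hJ hJ1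
  have := hm
  have := hc
  have hloc : IsLocalRing (P ⧸ (⨅ m, J m)) :=
    isLocalRing_of_isAdicComplete_maximal (I.map (Ideal.Quotient.mk (⨅ m, J m)))
  have hmax : IsLocalRing.maximalIdeal (P ⧸ (⨅ m, J m)) = I.map (Ideal.Quotient.mk (⨅ m, J m)) :=
    (IsLocalRing.eq_maximalIdeal hm).symm
  have halg : ∀ s, algebraMap S0 (P ⧸ (⨅ m, J m)) s
      = Ideal.Quotient.mk (⨅ m, J m) (algebraMap S0 P s) := fun s => rfl
  have halg' : algebraMap S0 (P ⧸ (⨅ m, J m))
      = (Ideal.Quotient.mk (⨅ m, J m)).comp (algebraMap S0 P) := rfl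
  refine ⟨P ⧸ (⨅ m, J m), inferInstance, inferInstance, hloc, inferInstance, hmax ▸ hc,
    ?_, ?_, ?_, ?_⟩
  · rw [hmax, hI, Ideal.map_map, halg']
  · intro n
    rw [hmax, halg', ← Ideal.comap_comap, hcomap n, hcomapJ n]
  · intro r n
    obtain ⟨x, rfl⟩ := Ideal.Quotient.mk_surjective r
    obtain ⟨s, hs⟩ := hdense x n
    refine ⟨s, ?_⟩
    rw [halg, ← map_sub, hmax, ← Ideal.map_pow]
    exact Ideal.mem_map_of_mem _ hs
  · intro A _ 𝔫 _ g hg
    have hgK : ∀ n, ∀ a ∈ K n, ((Ideal.Quotient.mk (𝔫 ^ n)).comp g) a = 0 := by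
      intro n a ha
      rw [RingHom.comp_apply, Ideal.Quotient.eq_zero_iff_mem]
      exact hg n (Ideal.mem_map_of_mem _ ha)
    let f : ∀ n, P →+* A ⧸ 𝔫 ^ n := fun n =>
      (Ideal.Quotient.lift (K n) ((Ideal.Quotient.mk (𝔫 ^ n)).comp g) (hgK n)).comp (ψ n)
    have hfι : ∀ n s, f n (algebraMap S0 P s) = Ideal.Quotient.mk (𝔫 ^ n) (g s) := by
      intro n s
      show Ideal.Quotient.lift (K n) _ (hgK n) (ψ n (algebraMap S0 P s)) = _
      rw [hψ, Ideal.Quotient.lift_mk]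
      rfl
    have hfJ : ∀ n, ∀ y ∈ J n, f n y = 0 := by
      intro n y hy
      show Ideal.Quotient.lift (K n) _ (hgK n) (ψ n y) = _
      have : ψ n y = 0 := hy
      rw [this, map_zero]
    have hcompat : ∀ {m n : ℕ} (hle : m ≤ n),
        (Ideal.Quotient.factorPow 𝔫 hle).comp (f n) = f m := by
      intro m n hle
      ext x
      obtain ⟨s, hs⟩ := hdense x n
      have hx : x = algebraMap S0 P s + (x - algebraMap S0 P s) := by ring
      rw [hx, RingHom.comp_apply, map_add, map_add, map_add, hfι, hfι,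
        hfJ n _ (hIJ n hs), hfJ m _ (hIJ m (Ideal.pow_le_pow_right hle hs)), map_zero]
      rfl
    let Φ : P →+* A := IsAdicComplete.liftRingHom 𝔫 f hcompat
    have hΦ : ∀ n x, Ideal.Quotient.mk (𝔫 ^ n) (Φ x) = f n x :=
      fun n x => IsAdicComplete.mk_liftRingHom 𝔫 f hcompat n x
    have hΦJ : ∀ y ∈ (⨅ m, J m), Φ y = 0 := by
      intro y hy
      apply eq_of_forall_quotient_mk_pow_eq 𝔫
      intro n
      rw [hΦ, map_zero]
      exact hfJ n y ((Ideal.mem_iInf.1 hy) n)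
    refine ⟨Ideal.Quotient.lift (⨅ m, J m) Φ hΦJ, ?_⟩
    ext s
    rw [RingHom.comp_apply, halg, Ideal.Quotient.lift_mk]
    apply eq_of_forall_quotient_mk_pow_eq 𝔫
    intro n
    rw [hΦ, hfι]

/-- P2: the limit ring attached to a chain of ideals of a polynomial ring. -/
theorem exists_limitRing (Λ : Type) [CommRing Λ] [IsNoetherianRing Λ] (τ : Type) [Finite τ]
    (K : ℕ → Ideal (MvPolynomial τ Λ))
    (hK : ∀ n, K n = K (n + 1) ⊔ (MvPolynomial.idealOfVars τ Λ) ^ n)
    (hK1 : (K 1).IsMaximal) :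
    ∃ (R : Type) (_ : CommRing R) (_ : Algebra (MvPolynomial τ Λ) R) (_ : IsLocalRing R)
      (_ : IsNoetherianRing R) (_ : IsAdicComplete (IsLocalRing.maximalIdeal R) R),
      IsLocalRing.maximalIdeal R = (MvPolynomial.idealOfVars τ Λ).map (algebraMap (MvPolynomial τ Λ) R) ∧
      (∀ n, ((IsLocalRing.maximalIdeal R) ^ n).comap (algebraMap (MvPolynomial τ Λ) R) = K n) ∧
      (∀ (r : R) (n : ℕ), ∃ s, r - algebraMap (MvPolynomial τ Λ) R s ∈ (IsLocalRing.maximalIdeal R) ^ n) ∧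
      (∀ (A : Type) [CommRing A] (𝔫 : Ideal A) [IsAdicComplete 𝔫 A] (g : MvPolynomial τ Λ →+* A),
          (∀ n, (K n).map g ≤ 𝔫 ^ n) → ∃ φ : R →+* A, φ.comp (algebraMap (MvPolynomial τ Λ) R) = g) := by
  have : IsNoetherianRing (AdicCompletion (MvPolynomial.idealOfVars τ Λ) (MvPolynomial τ Λ)) :=
    isNoetherianRing_of_ringEquiv _ (MvPowerSeries.toAdicCompletionAlgEquiv τ Λ).toRingEquiv
  exact exists_limitRing_aux (MvPolynomial τ Λ) (MvPolynomial.idealOfVars τ Λ)
    (MvPolynomial.idealOfVars_fg τ Λ) K hK hK1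

end Fermat.Agent.S53
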