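import Mathlib
import Fermat.Agent.S53.Defs

/-!
# S53: toolkit on Artinian test algebras
-/

set_option autoImplicit false

namespace Fermat.Agent.S53

open IsLocalRing

section Residue

variable (𝒪 : Type) [CommRing 𝒪] [IsLocalRing 𝒪]

/-- `ResidueField.map (algebraMap 𝒪 A)` is bijective when `𝒪 → A → A/m` is surjective. -/
theorem residueFieldMap_bijective (A : Type) [CommRing A] [IsLocalRing A] [Algebra 𝒪 A]
    [IsLocalHom (algebraMap 𝒪 A)]
    (hs : Function.Surjective (IsLocalRing.residue A ∘ algebraMap 𝒪 A)) :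
    Function.Bijective (IsLocalRing.ResidueField.map (algebraMap 𝒪 A)) := by
  refine ⟨RingHom.injective _, fun x => ?_⟩
  obtain ⟨a, rfl⟩ := hs x
  exact ⟨residue 𝒪 a, by simp [IsLocalRing.ResidueField.map_residue]⟩

/-- (t3) the residue algebra hom `A →ₐ[𝒪] k`. -/
theorem exists_residueAlgHom (A : Type) [CommRing A] [IsLocalRing A] [Algebra 𝒪 A]
    (h1 : IsLocalHom (algebraMap 𝒪 A))
    (hs : Function.Surjective (IsLocalRing.residue A ∘ algebraMap 𝒪 A)) :
    ∃ π : A →ₐ[𝒪] ResidueField 𝒪, ∀ a, π a = 0 ↔ a ∈ maximalIdeal A := by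
  let e : ResidueField 𝒪 ≃+* ResidueField A :=
    RingEquiv.ofBijective _ (residueFieldMap_bijective 𝒪 A hs)
  refine ⟨{ ((e.symm : ResidueField A →+* ResidueField 𝒪).comp (residue A)) with
      commutes' := fun a => ?_ }, fun a => ?_⟩
  · change e.symm (residue A (algebraMap 𝒪 A a)) = residue 𝒪 a
    rw [RingEquiv.symm_apply_eq]
    exact (IsLocalRing.ResidueField.map_residue (algebraMap 𝒪 A) a).symm
  · change e.symm (residue A a) = 0 ↔ _
    rw [map_eq_zero_iff _ e.symm.injective, residue_eq_zero_iff]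

/-- (t4) Any `𝒪`-algebra hom from a local `𝒪`-algebra to a local `𝒪`-algebra with residue
field generated by `𝒪` is a local hom. -/
theorem isLocalHom_of_algHom (A : Type) [CommRing A] [IsLocalRing A] [Algebra 𝒪 A]
    (B : Type) [CommRing B] [IsLocalRing B] [Algebra 𝒪 B]
    (hs : Function.Surjective (IsLocalRing.residue B ∘ algebraMap 𝒪 B))
    (φ : A →ₐ[𝒪] B) : IsLocalHom (φ : A →+* B) := by
  refine ⟨fun a ha => ?_⟩
  by_contra hna
  have h1 : a ∈ maximalIdeal A := (mem_maximalIdeal a).2 hna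
  obtain ⟨u, hu⟩ := ha
  obtain ⟨c, hc⟩ := hs (residue B (↑u⁻¹ : B))
  have hc' : (↑u⁻¹ : B) - algebraMap 𝒪 B c ∈ maximalIdeal B := by
    rw [← residue_eq_zero_iff, map_sub, sub_eq_zero]
    exact hc.symm
  -- `1 - a * c` is a unit of `A`
  have h2 : IsUnit (1 - a * algebraMap 𝒪 A c) := by
    by_contra h
    have h3 : 1 - a * algebraMap 𝒪 A c ∈ maximalIdeal A := (mem_maximalIdeal _).2 h
    have h4 : (1 : A) ∈ maximalIdeal A := by
      have := Ideal.add_mem _ h3 (Ideal.mul_mem_right (algebraMap 𝒪 A c) _ h1)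
      simpa using this
    exact (Ideal.ne_top_iff_one _).1 (Ideal.IsPrime.ne_top inferInstance) h4
  have h5 : IsUnit ((φ : A →+* B) (1 - a * algebraMap 𝒪 A c)) := h2.map _
  have h6 : (φ : A →+* B) (1 - a * algebraMap 𝒪 A c) =
      (u : B) * ((↑u⁻¹ : B) - algebraMap 𝒪 B c) := by
    have hφa : (φ : A →+* B) a = u := hu.symm
    rw [map_sub, map_one, map_mul, hφa, mul_sub, Units.mul_inv]
    congr 2
    exact φ.commutes c
  rw [h6] at h5
  exact (mem_maximalIdeal _).1 (Ideal.mul_mem_left _ _ hc') h5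

end Residue

section Finite

/-- (P3a) Artinian test algebras over `𝒪` with finite residue field are finite. -/
theorem finite_of_isArtinianTestAlgebra (𝒪 : Type) [CommRing 𝒪] [IsLocalRing 𝒪]
    [Finite (IsLocalRing.ResidueField 𝒪)]
    (A : Type) [CommRing A] [IsLocalRing A] [Algebra 𝒪 A]
    (hA : GaloisRep.IsArtinianTestAlgebra 𝒪 A) : Finite A := by
  have := hA.isArtinian
  have := hA.isLocalHom
  have : Finite (ResidueField A) :=
    Finite.of_surjective _ (residueFieldMap_bijective 𝒪 A hA.residue_surjective).2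
  obtain ⟨n, hn⟩ := (isArtinianRing_iff_isNilpotent_maximalIdeal A).mp inferInstance
  have h1 : Finite (A ⧸ (⊥ : Ideal A)) :=
    (IsLocalRing.finite_quotient_iff).2 ⟨n, by rw [hn]; exact le_rfl⟩
  exact Finite.of_equiv _ (RingEquiv.quotientBot A).toEquiv

end Finite

section Basic

variable (𝒪 : Type) [CommRing 𝒪] [IsLocalRing 𝒪]

/-- (t2) the residue field is a test algebra. -/
theorem isArtinianTestAlgebra_residueField :
    GaloisRep.IsArtinianTestAlgebra 𝒪 (ResidueField 𝒪) where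
  isLocalHom := inferInstanceAs (IsLocalHom (residue 𝒪))
  residue_surjective :=
    (residue_surjective (R := ResidueField 𝒪)).comp (residue_surjective (R := 𝒪))
  isArtinian := inferInstance

theorem dualAlg_algebraMap_apply (a : 𝒪) :
    letI := dualAlg 𝒪
    algebraMap 𝒪 (DualNumber (ResidueField 𝒪)) a = TrivSqZeroExt.inl (residue 𝒪 a) := rfl

/-- (t1) the dual numbers are a test algebra. -/
theorem isArtinianTestAlgebra_dualNumber :
    letI := dualAlg 𝒪
    GaloisRep.IsArtinianTestAlgebra 𝒪 (DualNumber (ResidueField 𝒪)) := by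
  letI := dualAlg 𝒪
  refine ⟨⟨fun a ha => ?_⟩, fun x => ?_, ?_⟩
  · rw [dualAlg_algebraMap_apply, TrivSqZeroExt.isUnit_inl_iff] at ha
    exact (isUnit_map_iff (residue 𝒪) a).1 ha
  · obtain ⟨y, rfl⟩ := residue_surjective x
    obtain ⟨a, ha⟩ := residue_surjective (R := 𝒪) y.fst
    refine ⟨a, ?_⟩
    change residue _ (algebraMap 𝒪 (DualNumber (ResidueField 𝒪)) a) = residue _ y
    rw [dualAlg_algebraMap_apply, ha, ← sub_eq_zero, ← map_sub, residue_eq_zero_iff,
      mem_maximalIdeal, mem_nonunits_iff, TrivSqZeroExt.isUnit_iff_isUnit_fst]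
    simp
  · have : Module.Finite (ResidueField 𝒪) (DualNumber (ResidueField 𝒪)) :=
      inferInstanceAs (Module.Finite (ResidueField 𝒪) (ResidueField 𝒪 × ResidueField 𝒪))
    exact IsArtinianRing.of_finite (ResidueField 𝒪) _

instance finite_dualNumber (k : Type) [Finite k] : Finite (DualNumber k) :=
  inferInstanceAs (Finite (k × k))

end Basic

section QuotientPow

/-- (P3c) `A / m^n` is a test algebra. -/
theorem isArtinianTestAlgebra_quotient_pow (𝒪 : Type) [CommRing 𝒪] [IsLocalRing 𝒪]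
    (A : Type) [CommRing A] [IsLocalRing A] [IsNoetherianRing A] [Algebra 𝒪 A]
    [IsLocalHom (algebraMap 𝒪 A)]
    (hs : Function.Surjective (IsLocalRing.residue A ∘ algebraMap 𝒪 A)) (n : ℕ) (hn : n ≠ 0) :
    ∃ _ : IsLocalRing (A ⧸ (IsLocalRing.maximalIdeal A) ^ n),
      GaloisRep.IsArtinianTestAlgebra 𝒪 (A ⧸ (IsLocalRing.maximalIdeal A) ^ n) ∧
      IsLocalHom (Ideal.Quotient.mk ((IsLocalRing.maximalIdeal A) ^ n)) ∧
      (IsLocalRing.maximalIdeal (A ⧸ (IsLocalRing.maximalIdeal A) ^ n)) ^ n = ⊥ := by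
  set I : Ideal A := maximalIdeal A ^ n with hI
  have hIle : I ≤ maximalIdeal A := Ideal.pow_le_self hn
  have hItop : I ≠ ⊤ := fun h => (Ideal.IsPrime.ne_top inferInstance : maximalIdeal A ≠ ⊤)
    (top_le_iff.1 (h ▸ hIle))
  have hnt : Nontrivial (A ⧸ I) := Ideal.Quotient.nontrivial_iff.mpr hItop
  have hloc : IsLocalRing (A ⧸ I) :=
    IsLocalRing.of_surjective' (Ideal.Quotient.mk I) Ideal.Quotient.mk_surjective
  have hlh : IsLocalHom (Ideal.Quotient.mk I) :=
    IsLocalHom.of_surjective (Ideal.Quotient.mk I) Ideal.Quotient.mk_surjective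
  have hmap : (maximalIdeal A).map (Ideal.Quotient.mk I) = maximalIdeal (A ⧸ I) := by
    ext x
    obtain ⟨x, rfl⟩ := Ideal.Quotient.mk_surjective x
    simp [sup_eq_left.mpr hIle]
  have hpow : maximalIdeal (A ⧸ I) ^ n = ⊥ := by
    rw [← hmap, ← Ideal.map_pow, Ideal.map_eq_bot_iff_le_ker, Ideal.mk_ker]
  refine ⟨hloc, ⟨?_, ?_, ?_⟩, hlh, hpow⟩
  · have : algebraMap 𝒪 (A ⧸ I) = (Ideal.Quotient.mk I).comp (algebraMap 𝒪 A) := rfl
    rw [this]
    exact RingHom.isLocalHom_comp _ _
  · intro x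
    obtain ⟨y, rfl⟩ := residue_surjective x
    obtain ⟨y, rfl⟩ := Ideal.Quotient.mk_surjective y
    obtain ⟨a, ha⟩ := hs (residue A y)
    refine ⟨a, ?_⟩
    change residue _ (Ideal.Quotient.mk I (algebraMap 𝒪 A a)) = _
    rw [← sub_eq_zero, ← map_sub, ← map_sub, residue_eq_zero_iff, ← hmap]
    apply Ideal.mem_map_of_mem
    rw [← residue_eq_zero_iff, map_sub, sub_eq_zero]
    exact ha
  · exact (isArtinianRing_iff_isNilpotent_maximalIdeal _).2 ⟨n, hpow⟩

end QuotientPow

section Separation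

/-- (P3b) square-zero test algebras killed by `m_𝒪` are separated by maps to the dual numbers. -/
theorem exists_algHom_dualNumber_ne_zero (𝒪 : Type) [CommRing 𝒪] [IsLocalRing 𝒪]
    (B : Type) [CommRing B] [IsLocalRing B] [Algebra 𝒪 B]
    (hB : GaloisRep.IsArtinianTestAlgebra 𝒪 B)
    (hsq : (IsLocalRing.maximalIdeal B) ^ 2 = ⊥)
    (hm : ∀ a ∈ IsLocalRing.maximalIdeal 𝒪, algebraMap 𝒪 B a = 0)
    (b : B) (hb : b ≠ 0) :
    letI : Algebra 𝒪 (DualNumber (IsLocalRing.ResidueField 𝒪)) :=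
      ((algebraMap (IsLocalRing.ResidueField 𝒪) (DualNumber (IsLocalRing.ResidueField 𝒪))).comp
        (algebraMap 𝒪 (IsLocalRing.ResidueField 𝒪))).toAlgebra
    ∃ φ : B →ₐ[𝒪] DualNumber (IsLocalRing.ResidueField 𝒪), φ b ≠ 0 := by
  letI := dualAlg 𝒪
  have := hB.isLocalHom
  obtain ⟨π, hπ⟩ := exists_residueAlgHom 𝒪 B hB.isLocalHom hB.residue_surjective
  -- the section `k → B`
  let ι : ResidueField 𝒪 →+* B := Ideal.Quotient.lift (maximalIdeal 𝒪) (algebraMap 𝒪 B) hm
  have hι : ∀ a : 𝒪, ι (residue 𝒪 a) = algebraMap 𝒪 B a := fun a => rfl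
  have hπι : ∀ x, π (ι x) = x := by
    intro x
    obtain ⟨a, rfl⟩ := residue_surjective x
    rw [hι]
    exact π.commutes a
  letI : Algebra (ResidueField 𝒪) B := ι.toAlgebra
  have hsmul : ∀ (c : ResidueField 𝒪) (x : B), c • x = ι c * x := fun c x => rfl
  have hδmem : ∀ x : B, x - ι (π x) ∈ maximalIdeal B := by
    intro x
    rw [← hπ, map_sub, hπι, sub_self]
  have hmul0 : ∀ x y : B, x ∈ maximalIdeal B → y ∈ maximalIdeal B → x * y = 0 := by
    intro x y hx hy
    have : x * y ∈ maximalIdeal B ^ 2 := by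
      rw [pow_two]; exact Ideal.mul_mem_mul hx hy
    rwa [hsq, Ideal.mem_bot] at this
  obtain ⟨lam, hlam⟩ : ∃ lam : Module.Dual (ResidueField 𝒪) B, lam b ≠ 0 := by
    by_contra hcon
    push Not at hcon
    exact hb ((Module.forall_dual_apply_eq_zero_iff (ResidueField 𝒪) b).1 hcon)
  let f : B → DualNumber (ResidueField 𝒪) := fun x =>
    TrivSqZeroExt.inl (π x) + TrivSqZeroExt.inr (lam (x - ι (π x)))
  have hf1 : f 1 = 1 := by
    simp [f]
  have hfmul : ∀ x y, f (x * y) = f x * f y := by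
    intro x y
    have key : x * y - ι (π (x * y)) = π x • (y - ι (π y)) + π y • (x - ι (π x)) := by
      have h0 := hmul0 _ _ (hδmem x) (hδmem y)
      rw [hsmul, hsmul, map_mul, map_mul]
      linear_combination h0
    ext
    · simp [f]
    · simp only [f, key, map_add, map_smul]
      simp [mul_comm]
  have hfadd : ∀ x y, f (x + y) = f x + f y := by
    intro x y
    ext
    · simp [f]
    · simp only [f, map_add]
      simp
      ring
  have hf0 : f 0 = 0 := by simp [f]
  have hfalg : ∀ a : 𝒪, f (algebraMap 𝒪 B a) = algebraMap 𝒪 (DualNumber (ResidueField 𝒪)) a := by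
    intro a
    have h1 : π (algebraMap 𝒪 B a) = residue 𝒪 a := π.commutes a
    simp only [f, h1, hι, sub_self, map_zero, TrivSqZeroExt.inr_zero, add_zero]
    rfl
  refine ⟨{ toFun := f, map_one' := hf1, map_mul' := hfmul, map_zero' := hf0, map_add' := hfadd,
            commutes' := hfalg }, ?_⟩
  change f b ≠ 0
  intro h0
  have h1 : π b = 0 := by simpa [f] using congrArg TrivSqZeroExt.fst h0
  have h2 : lam (b - ι (π b)) = 0 := by simpa [f] using congrArg TrivSqZeroExt.snd h0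
  rw [h1, map_zero, sub_zero] at h2
  exact hlam h2

end Separation

end Fermat.Agent.S53
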