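import Mathlib
import Fermat.Agent.S53.Rep.Kn

set_option autoImplicit false
set_option linter.style.haveILetI false
set_option linter.unusedSectionVars false

namespace Fermat.Agent.S53.Rep

open IsLocalRing GaloisRep MvPolynomial

lemma map_mem_maximalIdeal_pow {R A : Type} [CommRing R] [CommRing A] [IsLocalRing R]
    [IsLocalRing A] (φ : R →+* A) (hφ : IsLocalHom φ) {r : R} {n : ℕ}
    (hr : r ∈ maximalIdeal R ^ n) : φ r ∈ maximalIdeal A ^ n := by
  have h1 : (maximalIdeal R).map φ ≤ maximalIdeal A :=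
    ((IsLocalRing.local_hom_TFAE φ).out 0 2).mp hφ
  have h2 := Ideal.mem_map_of_mem φ hr
  rw [Ideal.map_pow] at h2
  exact Ideal.pow_right_mono h1 n h2

lemma eq_zero_of_forall_mem_pow {A : Type} [CommRing A] (I : Ideal A) [IsHausdorff I A] {a : A}
    (h : ∀ n, a ∈ I ^ n) : a = 0 :=
  IsHausdorff.haus (I := I) (M := A) inferInstance a (fun n => by
    rw [SModEq.zero]
    simpa using h n)

section Assembly

variable {𝒪 : Type} [CommRing 𝒪] [IsLocalRing 𝒪] {ι : Type}
variable {F : ∀ ⦃A : Type⦄ [CommRing A] [IsLocalRing A] [Algebra 𝒪 A], (ι → A) → Prop}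
variable {xbar : ι → ResidueField 𝒪}
variable {s : Finset (MvPolynomial ι 𝒪)}

lemma Imin_antitone : Antitone (Imin F xbar) := antitone_nat_of_succ_le Imin_anti

lemma exists_ev_sub_mem [Finite (ResidueField 𝒪)] [IsNoetherianRing 𝒪] (hF : IsPointFunctor 𝒪 F)
    (hx : F xbar) (hs : Gens F xbar s) (p : MvPolynomial ι 𝒪) (n : ℕ) :
    ∃ u : MvPolynomial s 𝒪, ev s u - p ∈ Imin F xbar n := by
  rcases Nat.eq_zero_or_pos n with rfl | hn
  · exact ⟨0, by rw [Imin_zero]; trivial⟩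
  · obtain ⟨u, hu⟩ := hs.evq_surjective (good_Imin hF hx hs hn.ne') (Ideal.Quotient.mk _ p)
    exact ⟨u, Ideal.Quotient.eq.mp hu⟩

variable {R : Type} [CommRing R] [Algebra (MvPolynomial s 𝒪) R] [IsLocalRing R]

lemma algebraMap_mem_pow_iff
    (hcomap : ∀ n, ((maximalIdeal R) ^ n).comap (algebraMap (MvPolynomial s 𝒪) R) = Kn F xbar s n)
    {n : ℕ} {u : MvPolynomial s 𝒪} :
    algebraMap (MvPolynomial s 𝒪) R u ∈ maximalIdeal R ^ n ↔ ev s u ∈ Imin F xbar n := by
  rw [← mem_Kn, ← hcomap n, Ideal.mem_comap]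

lemma exists_coord [Finite (ResidueField 𝒪)] [IsNoetherianRing 𝒪]
    [IsAdicComplete (maximalIdeal R) R] (hF : IsPointFunctor 𝒪 F)
    (hx : F xbar) (hs : Gens F xbar s)
    (hcomap : ∀ n, ((maximalIdeal R) ^ n).comap (algebraMap (MvPolynomial s 𝒪) R) = Kn F xbar s n)
    (p : MvPolynomial ι 𝒪) :
    ∃ r : R, ∀ (n : ℕ) (u : MvPolynomial s 𝒪), ev s u - p ∈ Imin F xbar n →
      r - algebraMap (MvPolynomial s 𝒪) R u ∈ maximalIdeal R ^ n := by
  choose u hu using exists_ev_sub_mem hF hx hs p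
  have hdiff : ∀ (n : ℕ) (v w : MvPolynomial s 𝒪), ev s v - p ∈ Imin F xbar n →
      ev s w - p ∈ Imin F xbar n →
      algebraMap (MvPolynomial s 𝒪) R v - algebraMap (MvPolynomial s 𝒪) R w ∈
        maximalIdeal R ^ n := by
    intro n v w hv hw
    rw [← map_sub, algebraMap_mem_pow_iff hcomap, map_sub]
    have := (Imin F xbar n).sub_mem hv hw
    simpa using this
  obtain ⟨L, hL⟩ := IsPrecomplete.prec (I := maximalIdeal R) (M := R) inferInstance
    (f := fun n => algebraMap (MvPolynomial s 𝒪) R (u n)) (by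
      intro m n hmn
      rw [SModEq.sub_mem]
      simpa using hdiff m (u m) (u n) (hu m) (Imin_antitone hmn (hu n)))
  refine ⟨L, fun n v hv => ?_⟩
  have h1 : algebraMap (MvPolynomial s 𝒪) R (u n) - L ∈ maximalIdeal R ^ n := by
    have := hL n
    rw [SModEq.sub_mem] at this
    simpa using this
  have h2 := hdiff n (u n) v (hu n) hv
  have h3 : L - algebraMap (MvPolynomial s 𝒪) R v =
      (algebraMap (MvPolynomial s 𝒪) R (u n) - algebraMap (MvPolynomial s 𝒪) R v) -
      (algebraMap (MvPolynomial s 𝒪) R (u n) - L) := by ring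
  rw [h3]
  exact sub_mem h2 h1

variable [Algebra 𝒪 R] [IsScalarTower 𝒪 (MvPolynomial s 𝒪) R]

lemma exists_approx [Finite (ResidueField 𝒪)] [IsNoetherianRing 𝒪] (hF : IsPointFunctor 𝒪 F)
    (hx : F xbar) (hs : Gens F xbar s) (xR : ι → R)
    (hxR : ∀ (i : ι) (n : ℕ) (u : MvPolynomial s 𝒪), ev s u - X i ∈ Imin F xbar n →
      xR i - algebraMap (MvPolynomial s 𝒪) R u ∈ maximalIdeal R ^ n)
    (n : ℕ) (p : MvPolynomial ι 𝒪) :
    ∃ u : MvPolynomial s 𝒪, ev s u - p ∈ Imin F xbar n ∧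
      aeval xR p - algebraMap (MvPolynomial s 𝒪) R u ∈ maximalIdeal R ^ n := by
  induction p using MvPolynomial.induction_on with
  | C a =>
    refine ⟨C a, ?_, ?_⟩
    · have : ev s (C a) - C a = 0 := by rw [ev, aeval_C, sub_eq_zero]; rfl
      rw [this]; exact zero_mem _
    · have : aeval xR (C a : MvPolynomial ι 𝒪) - algebraMap (MvPolynomial s 𝒪) R (C a) = 0 := by
        rw [aeval_C, sub_eq_zero, IsScalarTower.algebraMap_apply 𝒪 (MvPolynomial s 𝒪) R]
        rfl
      rw [this]; exact zero_mem _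
  | add p q hp hq =>
    obtain ⟨u, hu1, hu2⟩ := hp
    obtain ⟨v, hv1, hv2⟩ := hq
    refine ⟨u + v, ?_, ?_⟩
    · have : ev s (u + v) - (p + q) = (ev s u - p) + (ev s v - q) := by rw [map_add]; ring
      rw [this]; exact add_mem hu1 hv1
    · have : aeval xR (p + q) - algebraMap (MvPolynomial s 𝒪) R (u + v) =
          (aeval xR p - algebraMap (MvPolynomial s 𝒪) R u) +
          (aeval xR q - algebraMap (MvPolynomial s 𝒪) R v) := by
        rw [map_add, map_add]; ring
      rw [this]; exact add_mem hu2 hv2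
  | mul_X p i hp =>
    obtain ⟨u, hu1, hu2⟩ := hp
    obtain ⟨v, hv1⟩ := exists_ev_sub_mem hF hx hs (X i) n
    have hv2 := hxR i n v hv1
    refine ⟨u * v, ?_, ?_⟩
    · have : ev s (u * v) - p * X i = (ev s u - p) * ev s v + p * (ev s v - X i) := by
        rw [map_mul]; ring
      rw [this]
      exact add_mem (Ideal.mul_mem_right _ _ hu1) (Ideal.mul_mem_left _ _ hv1)
    · have : aeval xR (p * X i) - algebraMap (MvPolynomial s 𝒪) R (u * v) =
          (aeval xR p - algebraMap (MvPolynomial s 𝒪) R u) * xR i +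
          algebraMap (MvPolynomial s 𝒪) R u * (xR i - algebraMap (MvPolynomial s 𝒪) R v) := by
        rw [map_mul, map_mul, aeval_X]; ring
      rw [this]
      exact add_mem (Ideal.mul_mem_right _ _ hu2) (Ideal.mul_mem_left _ _ hv2)

lemma aeval_sub_mem [Finite (ResidueField 𝒪)] [IsNoetherianRing 𝒪] (hF : IsPointFunctor 𝒪 F)
    (hx : F xbar) (hs : Gens F xbar s)
    (hcomap : ∀ n, ((maximalIdeal R) ^ n).comap (algebraMap (MvPolynomial s 𝒪) R) = Kn F xbar s n)
    (xR : ι → R)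
    (hxR : ∀ (i : ι) (n : ℕ) (u : MvPolynomial s 𝒪), ev s u - X i ∈ Imin F xbar n →
      xR i - algebraMap (MvPolynomial s 𝒪) R u ∈ maximalIdeal R ^ n)
    (n : ℕ) (p : MvPolynomial ι 𝒪) (v : MvPolynomial s 𝒪) (hv : ev s v - p ∈ Imin F xbar n) :
    aeval xR p - algebraMap (MvPolynomial s 𝒪) R v ∈ maximalIdeal R ^ n := by
  obtain ⟨u, hu1, hu2⟩ := exists_approx hF hx hs xR hxR n p
  have h1 : algebraMap (MvPolynomial s 𝒪) R u - algebraMap (MvPolynomial s 𝒪) R v ∈
      maximalIdeal R ^ n := by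
    rw [← map_sub, algebraMap_mem_pow_iff hcomap, map_sub]
    have := (Imin F xbar n).sub_mem hu1 hv
    simpa using this
  have h2 : aeval xR p - algebraMap (MvPolynomial s 𝒪) R v =
      (aeval xR p - algebraMap (MvPolynomial s 𝒪) R u) +
      (algebraMap (MvPolynomial s 𝒪) R u - algebraMap (MvPolynomial s 𝒪) R v) := by ring
  rw [h2]
  exact add_mem hu2 h1

/-- For a point `y` of a CNL algebra `A`, `Imin n` is mapped into `𝔪_A ^ n`. -/
lemma aeval_mem_pow_of_mem_Imin [Finite (ResidueField 𝒪)] (hF : IsPointFunctor 𝒪 F)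
    (hx : F xbar) {A : Type} [CommRing A] [IsLocalRing A] [Algebra 𝒪 A] (hA : IsCNL 𝒪 A)
    {y : ι → A} (hy : F y) (n : ℕ) {p : MvPolynomial ι 𝒪} (hp : p ∈ Imin F xbar n) :
    aeval y p ∈ maximalIdeal A ^ n := by
  rcases Nat.eq_zero_or_pos n with rfl | hn
  · simp
  haveI := hA.isNoetherianRing
  haveI := hA.isLocalHom
  obtain ⟨hloc, htest, -, hpow⟩ :=
    isArtinianTestAlgebra_quotient_pow 𝒪 A hA.residue_surjective n hn.ne'
  have hFq := (hF.iff_forall_surjective hA y).mp hy htest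
    (Ideal.Quotient.mkₐ 𝒪 (maximalIdeal A ^ n)) (Ideal.Quotient.mkₐ_surjective _ _)
  have hgood := good_ker hF hx htest hFq
  have hle : (Mx xbar) ^ n ≤ RingHom.ker (aeval (Ideal.Quotient.mkₐ 𝒪 (maximalIdeal A ^ n) ∘ y) :
      MvPolynomial ι 𝒪 →ₐ[𝒪] A ⧸ maximalIdeal A ^ n) := by
    have h1 : Mx xbar ≤ (maximalIdeal (A ⧸ maximalIdeal A ^ n)).comap
        (aeval (Ideal.Quotient.mkₐ 𝒪 (maximalIdeal A ^ n) ∘ y) :
          MvPolynomial ι 𝒪 →ₐ[𝒪] A ⧸ maximalIdeal A ^ n) :=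
      fun p hp => (aeval_mem_maximalIdeal_iff hF hx htest hFq p).mpr hp
    calc (Mx xbar) ^ n ≤ ((maximalIdeal (A ⧸ maximalIdeal A ^ n)).comap
        (aeval (Ideal.Quotient.mkₐ 𝒪 (maximalIdeal A ^ n) ∘ y) :
          MvPolynomial ι 𝒪 →ₐ[𝒪] A ⧸ maximalIdeal A ^ n)) ^ n := Ideal.pow_right_mono h1 n
      _ ≤ ((maximalIdeal (A ⧸ maximalIdeal A ^ n)) ^ n).comap
        (aeval (Ideal.Quotient.mkₐ 𝒪 (maximalIdeal A ^ n) ∘ y) :
          MvPolynomial ι 𝒪 →ₐ[𝒪] A ⧸ maximalIdeal A ^ n) := Ideal.le_comap_pow _ n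
      _ = _ := by rw [hpow]; rfl
  have h2 := Imin_le hgood hle hp
  have h3 : (aeval (Ideal.Quotient.mkₐ 𝒪 (maximalIdeal A ^ n) ∘ y) :
      MvPolynomial ι 𝒪 →ₐ[𝒪] A ⧸ maximalIdeal A ^ n) =
      (Ideal.Quotient.mkₐ 𝒪 (maximalIdeal A ^ n)).comp (aeval y) := by
    refine MvPolynomial.algHom_ext fun i => ?_
    simp
  rw [RingHom.mem_ker, h3] at h2
  exact Ideal.Quotient.eq_zero_iff_mem.mp h2

end Assembly

theorem exists_represents_aux (𝒪 : Type) [CommRing 𝒪] [IsLocalRing 𝒪] [IsNoetherianRing 𝒪]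
    [Finite (ResidueField 𝒪)] {ι : Type}
    (F : ∀ ⦃A : Type⦄ [CommRing A] [IsLocalRing A] [Algebra 𝒪 A], (ι → A) → Prop)
    (hF : IsPointFunctor 𝒪 F) :
    ∃ (R : Type) (_ : CommRing R) (_ : IsLocalRing R) (_ : Algebra 𝒪 R) (x : ι → R),
      Represents 𝒪 F R x := by
  obtain ⟨xbar, hx⟩ := hF.residue_exists
  obtain ⟨s, hs⟩ := exists_Gens (xbar := xbar) hF
  obtain ⟨R, _, _, _, _, _, hmax, hcomap, hdense, huniv⟩ := exists_limitRing 𝒪 s (Kn F xbar s)
    (Kn_eq_sup hF hx hs) (Kn_one_isMaximal hF hx)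
  letI : Algebra 𝒪 R :=
    ((algebraMap (MvPolynomial s 𝒪) R).comp (algebraMap 𝒪 (MvPolynomial s 𝒪))).toAlgebra
  haveI : IsScalarTower 𝒪 (MvPolynomial s 𝒪) R := IsScalarTower.of_algebraMap_eq (fun _ => rfl)
  choose xR hxR using fun i => exists_coord hF hx hs hcomap (X i)
  have hK := aeval_sub_mem hF hx hs hcomap xR hxR
  -- `θ ∘ ev = algebraMap`
  have hθev : ∀ u : MvPolynomial s 𝒪, aeval xR (ev s u) = algebraMap (MvPolynomial s 𝒪) R u := by
    intro u
    rw [← sub_eq_zero]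
    refine eq_zero_of_forall_mem_pow (maximalIdeal R) fun n => hK n _ u ?_
    rw [sub_self]; exact zero_mem _
  have hθI : ∀ (n : ℕ) (p : MvPolynomial ι 𝒪), p ∈ Imin F xbar n →
      aeval xR p ∈ maximalIdeal R ^ n := by
    intro n p hp
    have := hK n p 0 (by rw [map_zero, zero_sub]; exact neg_mem hp)
    simpa using this
  have hmem1 : ∀ u : MvPolynomial s 𝒪, algebraMap (MvPolynomial s 𝒪) R u ∈ maximalIdeal R ↔
      u ∈ M0 xbar s := by
    intro u
    rw [← Kn_one hF hx, ← hcomap 1, Ideal.mem_comap, pow_one]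
  have hCNL : IsCNL 𝒪 R := by
    refine ⟨⟨fun a ha => ?_⟩, fun c => ?_, inferInstance, inferInstance⟩
    · by_contra hna
      have h1 : (C a : MvPolynomial s 𝒪) ∈ M0 xbar s := by
        show ev s (C a) ∈ Mx xbar
        rw [ev, aeval_C]
        exact (C_mem_Mx_iff xbar a).mpr hna
      have h2 := (hmem1 _).mpr h1
      exact h2 ha
    · obtain ⟨r, rfl⟩ := IsLocalRing.residue_surjective c
      obtain ⟨u, hu⟩ := hdense r 1
      obtain ⟨a, ha⟩ := exists_C_sub_mem_Mx xbar (ev s u)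
      refine ⟨a, ?_⟩
      rw [Function.comp_apply, eq_comm, ← sub_eq_zero, ← map_sub, IsLocalRing.residue_eq_zero_iff]
      have h1 : u - C a ∈ M0 xbar s := by
        show ev s (u - C a) ∈ Mx xbar
        rw [map_sub]
        have : ev s (C a) = C a := by rw [ev, aeval_C]; rfl
        rw [this]
        exact ha
      have h2 := (hmem1 _).mpr h1
      have h3 : r - algebraMap 𝒪 R a = (r - algebraMap (MvPolynomial s 𝒪) R u) +
          algebraMap (MvPolynomial s 𝒪) R (u - C a) := by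
        rw [map_sub]
        have : algebraMap 𝒪 R a = algebraMap (MvPolynomial s 𝒪) R (C a) := rfl
        rw [this]; ring
      rw [h3]
      exact add_mem (by simpa using hu) h2
  refine ⟨R, inferInstance, inferInstance, inferInstance, xR, hCNL, ?_, ?_, ?_⟩
  · -- `F xR`
    rw [hF.iff_forall_surjective hCNL xR]
    intro B _ _ _ hB q hq
    haveI := hB.isArtinian
    obtain ⟨n, hn⟩ := (isArtinianRing_iff_isNilpotent_maximalIdeal B).mp hB.isArtinian
    have hqloc := isLocalHom_of_algHom 𝒪 R B hB.residue_surjective q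
    refine (good_Imin hF hx hs (Nat.succ_ne_zero n)).map_point hF hB _ ?_
    intro p hp
    have h1 : (aeval (q ∘ xR) : MvPolynomial ι 𝒪 →ₐ[𝒪] B) = q.comp (aeval xR) := by
      refine MvPolynomial.algHom_ext fun i => ?_
      simp
    rw [RingHom.mem_ker, h1]
    have h2 := map_mem_maximalIdeal_pow (q : R →+* B) hqloc (hθI _ p hp)
    rw [pow_succ, hn, zero_mul] at h2
    exact h2
  · -- existence
    intro A _ _ _ hA y hy
    haveI := hA.isAdicComplete
    have hIA := fun n p hp => aeval_mem_pow_of_mem_Imin hF hx hA hy n (p := p) hp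
    obtain ⟨φ0, hφ0⟩ := huniv A (maximalIdeal A)
      (((aeval y : MvPolynomial ι 𝒪 →ₐ[𝒪] A).comp (ev s) : MvPolynomial s 𝒪 →ₐ[𝒪] A) :
        MvPolynomial s 𝒪 →+* A) (by
        intro n
        rw [Ideal.map_le_iff_le_comap]
        intro u hu
        exact hIA n _ hu)
    have hφ0' : ∀ u, φ0 (algebraMap (MvPolynomial s 𝒪) R u) = aeval y (ev s u) :=
      fun u => congrArg (fun f => f u) hφ0
    let φ : R →ₐ[𝒪] A :=
      { φ0 with
        commutes' := fun a => by
          have h1 : algebraMap 𝒪 R a = algebraMap (MvPolynomial s 𝒪) R (C a) := rfl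
          show φ0 (algebraMap 𝒪 R a) = _
          rw [h1, hφ0', ev, aeval_C]
          have h2 : algebraMap 𝒪 (MvPolynomial ι 𝒪) a = C a := rfl
          rw [h2, aeval_C] }
    have hφloc := isLocalHom_of_algHom 𝒪 R A hA.residue_surjective φ
    refine ⟨φ, funext fun i => ?_⟩
    rw [Function.comp_apply, ← sub_eq_zero]
    refine eq_zero_of_forall_mem_pow (maximalIdeal A) fun n => ?_
    obtain ⟨u, hu⟩ := exists_ev_sub_mem hF hx hs (X i) n
    have h1 := map_mem_maximalIdeal_pow (φ : R →+* A) hφloc (hxR i n u hu)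
    have h2 := hIA n _ hu
    have h3 : φ (xR i) - y i = (φ : R →+* A) (xR i - algebraMap (MvPolynomial s 𝒪) R u) +
        aeval y (ev s u - X i) := by
      rw [map_sub, map_sub, aeval_X]
      have : (φ : R →+* A) (algebraMap (MvPolynomial s 𝒪) R u) = aeval y (ev s u) := hφ0' u
      rw [this]
      show φ (xR i) - y i = φ (xR i) - _ + _
      ring
    rw [h3]
    exact add_mem h1 h2
  · -- uniqueness
    intro A _ _ _ hA φ ψ hφψ
    haveI := hA.isAdicComplete
    have hφloc := isLocalHom_of_algHom 𝒪 R A hA.residue_surjective φ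
    have hψloc := isLocalHom_of_algHom 𝒪 R A hA.residue_surjective ψ
    have h1 : φ.comp (aeval xR : MvPolynomial ι 𝒪 →ₐ[𝒪] R) = ψ.comp (aeval xR) := by
      refine MvPolynomial.algHom_ext fun i => ?_
      simpa using congrFun hφψ i
    ext r
    rw [← sub_eq_zero]
    refine eq_zero_of_forall_mem_pow (maximalIdeal A) fun n => ?_
    obtain ⟨u, hu⟩ := hdense r n
    have h2 := map_mem_maximalIdeal_pow (φ : R →+* A) hφloc hu
    have h3 := map_mem_maximalIdeal_pow (ψ : R →+* A) hψloc hu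
    have h4 : φ (algebraMap (MvPolynomial s 𝒪) R u) = ψ (algebraMap (MvPolynomial s 𝒪) R u) := by
      rw [← hθev]
      exact congrArg (fun f => f (ev s u)) h1
    have h5 : φ r - ψ r = (φ : R →+* A) (r - algebraMap (MvPolynomial s 𝒪) R u) -
        (ψ : R →+* A) (r - algebraMap (MvPolynomial s 𝒪) R u) := by
      rw [map_sub, map_sub]
      show φ r - ψ r = (φ r - φ _) - (ψ r - ψ _)
      rw [h4]; ring
    rw [h5]
    exact sub_mem h2 h3

end Fermat.Agent.S53.Rep

namespace Fermat.Agent.S53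

open IsLocalRing GaloisRep

theorem exists_represents (𝒪 : Type) [CommRing 𝒪] [IsDomain 𝒪] [IsDiscreteValuationRing 𝒪]
    [IsAdicComplete (maximalIdeal 𝒪) 𝒪] [Finite (ResidueField 𝒪)] {ι : Type}
    (F : ∀ ⦃A : Type⦄ [CommRing A] [IsLocalRing A] [Algebra 𝒪 A], (ι → A) → Prop)
    (hF : IsPointFunctor 𝒪 F) :
    ∃ (R : Type) (_ : CommRing R) (_ : IsLocalRing R) (_ : Algebra 𝒪 R) (x : ι → R),
      Represents 𝒪 F R x :=
  Rep.exists_represents_aux 𝒪 F hF

end Fermat.Agent.S53
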