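import Fermat.Agent.S53.Tangent
import Fermat.Agent.S53.BurnsideCor
import Fermat.Agent.S53.Represent

/-!
# S53: final assembly

* `isPointFunctor_FPoint` : the functor of normalised lifts of type `𝒟` is a point functor.
* `nonempty_deformationRingData_of_represents` : a representing object gives `DeformationRingData`.
-/

set_option autoImplicit false

namespace Fermat.Agent.S53

open IsLocalRing GaloisRep

section Fields

variable {𝒪 : Type} [CommRing 𝒪] [IsLocalRing 𝒪] {ρbar : ResidualGaloisRep (ResidueField 𝒪)}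
  {𝒟 : ∀ ⦃A : Type⦄ [CommRing A] [IsLocalRing A] [Algebra 𝒪 A], GaloisRepAdic A → Prop}

theorem FPoint.residue_unique (D : NormData 𝒪 ρbar) (x y : XG → ResidueField 𝒪)
    (hx : FPoint D 𝒟 x) (hy : FPoint D 𝒟 y) : x = y := by
  obtain ⟨r, hn, rfl, -⟩ := hx
  obtain ⟨r', hn', rfl, -⟩ := hy
  funext ⟨σ, i, j⟩
  have h1 := hn.lifts σ i j
  have h2 := hn'.lifts σ i j
  rw [maximalIdeal_eq_bot, Ideal.mem_bot, sub_eq_zero] at h1 h2
  change r σ i j = r' σ i j
  rw [h1, h2]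

theorem isNormLift_rbar (D : NormData 𝒪 ρbar) : IsNormLift D D.rbar where
  cont := by
    obtain ⟨L, hL, h⟩ := ρbar.factorsThroughFiniteLevel
    intro n
    refine ⟨L, hL, fun σ hσ i j => ?_⟩
    have h1 : D.rbar σ = 1 := by
      rw [D.rbar_eq, h σ hσ]
      exact LinearMap.toMatrix_one D.b
    rw [h1, sub_self]
    exact Ideal.zero_mem _
  lifts σ i j := by
    rw [ResidueField.algebraMap_eq, D.rt_eq, sub_self]
    exact Ideal.zero_mem _
  diag01 := by rw [D.he]; rfl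
  diag10 := by rw [D.he]; rfl
  one10 := D.hg1

theorem FPoint.residue_exists (D : NormData 𝒪 ρbar) (h𝒟 : IsDeformationCondition 𝒪 𝒟)
    (hbar : 𝒟 (GaloisRepAdic.ofResidualGaloisRep ρbar)) :
    ∃ x : XG → ResidueField 𝒪, FPoint D 𝒟 x := by
  refine ⟨entries D.rbar, D.rbar, isNormLift_rbar D, rfl, ?_⟩
  have e := isEquiv_ofMat_matOf (GaloisRepAdic.ofResidualGaloisRep ρbar) D.b
  have h1 : matOf (GaloisRepAdic.ofResidualGaloisRep ρbar) D.b = D.rbar := by
    ext σ : 1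
    rw [D.rbar_eq]
    rfl
  exact h𝒟.of_isEquiv (isArtinianTestAlgebra_residueField 𝒪)
    (IsEquiv.trans' e (ofMat_congr _ h1)) hbar

theorem isPointFunctor_FPoint (D : NormData 𝒪 ρbar) (h𝒟 : IsDeformationCondition 𝒪 𝒟)
    (hbar : 𝒟 (GaloisRepAdic.ofResidualGaloisRep ρbar)) (hfin : TangentFinite 𝒪 ρbar 𝒟) :
    IsPointFunctor 𝒪 (FPoint D 𝒟) where
  map := FPoint.map h𝒟 D
  of_injective := FPoint.of_injective h𝒟 D
  of_fibreProduct := FPoint.of_fibreProduct h𝒟 D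
  iff_forall_surjective := FPoint.iff_forall_surjective h𝒟 D
  residue_unique := FPoint.residue_unique D
  residue_exists := FPoint.residue_exists D h𝒟 hbar
  tangent_finite := FPoint.tangent_finite D hfin

end Fields

variable {𝒪 : Type} [CommRing 𝒪] [IsDomain 𝒪] [IsDiscreteValuationRing 𝒪]
  [IsAdicComplete (IsLocalRing.maximalIdeal 𝒪) 𝒪]
  {ρbar : ResidualGaloisRep (IsLocalRing.ResidueField 𝒪)}
  {𝒟 : ∀ ⦃A : Type⦄ [CommRing A] [IsLocalRing A] [Algebra 𝒪 A], GaloisRepAdic A → Prop}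

theorem nonempty_deformationRingData_of_represents (D : NormData 𝒪 ρbar)
    (habs : ρbar.IsAbsolutelyIrreducible) (h𝒟 : GaloisRep.IsDeformationCondition 𝒪 𝒟)
    (R : Type) [CommRing R] [IsLocalRing R] [Algebra 𝒪 R] (x : XG → R)
    (hR : Represents 𝒪 (FPoint D 𝒟) R x) :
    Nonempty (GaloisRep.DeformationRingData 𝒪 ρbar 𝒟) := by
  obtain ⟨r, hn, hrx, hD⟩ := hR.mem
  have := hR.isCNL.isLocalHom
  have := hR.isCNL.isNoetherianRing
  have := hR.isCNL.isAdicComplete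
  refine ⟨{ R := R
            residue_surjective := hR.isCNL.residue_surjective
            absIrr := habs
            ρ := ofMat r hn.cont
            isOfType := hD
            residual_isEquiv := residual_isEquiv_of_lifts D hn.cont hn.lifts
            universal := ?_ }⟩
  intro A _ _ _ _ _ _ hsurj ρA hDA hres
  have hA : IsCNL 𝒪 A := ⟨inferInstance, hsurj, inferInstance, inferInstance⟩
  obtain ⟨r0, hr0, he0⟩ := exists_isEquiv_ofMat ρA
  have hres0 : (ofMat r0 hr0).residual.IsEquiv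
      (ρbar.baseChangeAlong (ResidueField.map (algebraMap 𝒪 A))) := by
    obtain ⟨e0⟩ := he0
    obtain ⟨e1⟩ := hres
    exact ⟨e0.residual.symm.trans e1⟩
  obtain ⟨u, hl⟩ := exists_conj_lifts D hr0 hres0
  obtain ⟨U, r1, hU, hn1, hc1⟩ := exists_isNormLift D (conjMat u r0) (hr0.conj u) hl
  have e1 : ρA.IsEquiv (ofMat r1 hn1.cont) :=
    IsEquiv.trans' he0 (IsEquiv.trans'
      ((ofMat_isEquiv_iff hr0 (hr0.conj u)).2 ⟨u, u.isUnit, mul_eq_conjMat_mul u r0⟩)
      ((ofMat_isEquiv_iff (hr0.conj u) hn1.cont).2 ⟨U, hU, hc1⟩))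
  have hD1 : 𝒟 (ofMat r1 hn1.cont) := of_isEquiv_cnl h𝒟 hA e1 hDA
  obtain ⟨φ, hφ⟩ := hR.exists_hom hA (entries r1) ⟨r1, hn1, rfl, hD1⟩
  have hloc : ∀ ψ : R →ₐ[𝒪] A, IsLocalHom (ψ : R →+* A) :=
    fun ψ => isLocalHom_algHom_of_residue_surjective hsurj ψ
  refine ⟨φ, ⟨hloc φ, ?_⟩, ?_⟩
  · have h1 : mapMat (φ : R →+* A) r = r1 := entries_injective (by
      rw [entries_mapMat, hrx]; exact hφ)
    exact IsEquiv.trans' (baseChangeAlong_ofMat_isEquiv (φ : R →+* A) (hloc φ) hn.cont)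
      (IsEquiv.trans' (ofMat_congr _ h1) (IsEquiv.symm' e1))
  · rintro φ' ⟨hφ', e'⟩
    have h2 : (ofMat (mapMat (φ' : R →+* A) r) (hn.cont.map _ hφ')).IsEquiv (ofMat r1 hn1.cont) :=
      IsEquiv.trans' (IsEquiv.symm' (baseChangeAlong_ofMat_isEquiv (φ' : R →+* A) hφ' hn.cont))
        (IsEquiv.trans' e' e1)
    obtain ⟨V, hV, hVc⟩ := (ofMat_isEquiv_iff _ _).1 h2
    have h3 : mapMat (φ' : R →+* A) r = r1 :=
      (haveI := hφ'; hn.mapMat φ').eq_of_conj hn1 V hV hVc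
    apply hR.hom_ext hA
    rw [hφ, ← h3, entries_mapMat, hrx]
    rfl

end Fermat.Agent.S53
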