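import Fermat.Agent.S53.Residual

set_option autoImplicit false

namespace Fermat.Agent.S53

open IsLocalRing

/-- The index set of matrix entries. -/
abbrev XG : Type := GQ × Fin 2 × Fin 2

/-- The family of entries of a matrix representation. -/
noncomputable def entries {A : Type} [CommRing A] (r : GQ →* M2 A) : XG → A := fun p => r p.1 p.2.1 p.2.2

theorem entries_injective {A : Type} [CommRing A] : Function.Injective (entries (A := A)) := by
  intro r r' h
  ext σ i j
  exact congrFun h (σ, i, j)

theorem entries_mapMat {A B : Type} [CommRing A] [CommRing B] (φ : A →+* B) (r : GQ →* M2 A) :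
    entries (mapMat φ r) = φ ∘ entries r := rfl

/-- A family of entries satisfying the multiplicativity equations comes from a representation. -/
theorem exists_entries_eq {A : Type} [CommRing A] (x : XG → A)
    (h1 : ∀ i j, x (1, i, j) = (1 : M2 A) i j)
    (hmul : ∀ σ τ i j, x (σ * τ, i, j) = ∑ l, x (σ, i, l) * x (τ, l, j)) :
    ∃ r : GQ →* M2 A, entries r = x :=
  ⟨{ toFun := fun σ => Matrix.of fun i j => x (σ, i, j)
     map_one' := by ext i j; exact h1 i j
     map_mul' := fun σ τ => by
      ext i j
      rw [Matrix.mul_apply]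
      exact hmul σ τ i j }, rfl⟩

variable {𝒪 : Type} [CommRing 𝒪] [IsLocalRing 𝒪] {ρbar : ResidualGaloisRep (ResidueField 𝒪)}

/-- The functor of normalised lifts of type `𝒟`, as a subfunctor of `A ↦ (XG → A)`. -/
def FPoint (D : NormData 𝒪 ρbar)
    (𝒟 : ∀ ⦃A : Type⦄ [CommRing A] [IsLocalRing A] [Algebra 𝒪 A], GaloisRepAdic A → Prop)
    ⦃A : Type⦄ [CommRing A] [IsLocalRing A] [Algebra 𝒪 A] (x : XG → A) : Prop :=
  ∃ (r : GQ →* M2 A) (h : IsNormLift D r), entries r = x ∧ 𝒟 (ofMat r h.cont)

end Fermat.Agent.S53
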