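import Fermat.Agent.S53.OfMat

/-!
# S53: transport of a deformation condition along equivalences, matrix form of the axioms

* `of_isEquiv_cnl` (X1), `isAdicComplete_of_isArtinianRing`, `IsCNL.of_isArtinianTestAlgebra` (X2),
* `baseChangeAlong_baseChangeAlong_isEquiv` (X3),
* `ofMat_map`, `ofMat_of_injective`, `ofMat_of_fibreProduct`, `ofMat_iff_forall_surjective` (X4).
-/

set_option autoImplicit false

namespace Fermat.Agent.S53

open IsLocalRing GaloisRep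

section X2

/-- An Artinian local ring is complete for its maximal ideal (Mathlib instance, named). -/
theorem isAdicComplete_of_isArtinianRing (A : Type) [CommRing A] [IsLocalRing A]
    [IsArtinianRing A] : IsAdicComplete (maximalIdeal A) A :=
  inferInstance

variable {𝒪 : Type} [CommRing 𝒪] [IsLocalRing 𝒪]

theorem IsCNL.of_isArtinianTestAlgebra {A : Type} [CommRing A] [IsLocalRing A] [Algebra 𝒪 A]
    (hA : IsArtinianTestAlgebra 𝒪 A) : IsCNL 𝒪 A :=
  have := hA.isArtinian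
  { isLocalHom := hA.isLocalHom
    residue_surjective := hA.residue_surjective
    isNoetherianRing := inferInstance
    isAdicComplete := inferInstance }

/-- An `𝒪`-algebra hom into a local `𝒪`-algebra with residue field `k` is a local hom.
(Local copy, under a different name, of the toolkit lemma of `TestAlgebra.lean`.) -/
theorem isLocalHom_algHom_of_residue_surjective {A B : Type} [CommRing A] [IsLocalRing A]
    [Algebra 𝒪 A] [CommRing B] [IsLocalRing B] [Algebra 𝒪 B]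
    (hs : Function.Surjective (IsLocalRing.residue B ∘ algebraMap 𝒪 B)) (φ : A →ₐ[𝒪] B) :
    IsLocalHom (φ : A →+* B) := by
  refine ⟨fun a ha => ?_⟩
  by_contra hna
  obtain ⟨u, hu⟩ := ha
  obtain ⟨c, hc⟩ := hs (residue B ((u⁻¹ : Bˣ) : B))
  have hmem : a * algebraMap 𝒪 A c ∈ maximalIdeal A :=
    Ideal.mul_mem_right _ _ ((mem_maximalIdeal a).mpr hna)
  have hunit : IsUnit (1 - a * algebraMap 𝒪 A c) := by
    by_contra h
    have h1 : (1 - a * algebraMap 𝒪 A c) ∈ maximalIdeal A := (mem_maximalIdeal _).mpr h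
    have h2 : (1 : A) ∈ maximalIdeal A := by
      have := Ideal.add_mem _ h1 hmem
      simpa using this
    exact (Ideal.ne_top_iff_one _).mp (Ideal.IsMaximal.ne_top inferInstance) h2
  have hunit' : IsUnit ((φ : A →+* B) (1 - a * algebraMap 𝒪 A c)) := hunit.map (φ : A →+* B)
  have hzero : residue B ((φ : A →+* B) (1 - a * algebraMap 𝒪 A c)) = 0 := by
    have h3 : (φ : A →+* B) (1 - a * algebraMap 𝒪 A c) = 1 - (u : B) * algebraMap 𝒪 B c := by
      rw [map_sub, map_one, map_mul, hu]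
      congr 2
      exact φ.commutes c
    rw [h3, map_sub, map_one, map_mul]
    have h4 : residue B (algebraMap 𝒪 B c) = residue B ((u⁻¹ : Bˣ) : B) := hc
    rw [h4, ← map_mul, Units.mul_inv, map_one, sub_self]
  exact ((residue_eq_zero_iff _).mp hzero) hunit'

end X2

section Transport

variable {𝒪 : Type} [CommRing 𝒪] [IsLocalRing 𝒪]
  {𝒟 : ∀ ⦃A : Type⦄ [CommRing A] [IsLocalRing A] [Algebra 𝒪 A], GaloisRepAdic A → Prop}

/-- (X1) A deformation condition is invariant under equivalence also over complete noetherian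
local algebras. -/
theorem of_isEquiv_cnl (h𝒟 : IsDeformationCondition 𝒪 𝒟)
    {A : Type} [CommRing A] [IsLocalRing A] [Algebra 𝒪 A]
    (hA : IsCNL 𝒪 A) {ρ ρ' : GaloisRepAdic A} (h : ρ.IsEquiv ρ') : 𝒟 ρ → 𝒟 ρ' := by
  intro hρ
  have := hA.isNoetherianRing
  have := hA.isAdicComplete
  obtain ⟨e⟩ := h
  rw [h𝒟.iff_forall_surjective hA.isLocalHom hA.residue_surjective] at hρ ⊢
  intro B _ _ _ hB q hq hqs
  exact h𝒟.of_isEquiv hB ⟨e.baseChangeAlong (q : A →+* B) hq⟩ (hρ hB q hq hqs)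

theorem of_isEquiv_cnl_iff (h𝒟 : IsDeformationCondition 𝒪 𝒟)
    {A : Type} [CommRing A] [IsLocalRing A] [Algebra 𝒪 A]
    (hA : IsCNL 𝒪 A) {ρ ρ' : GaloisRepAdic A} (h : ρ.IsEquiv ρ') : 𝒟 ρ ↔ 𝒟 ρ' :=
  ⟨of_isEquiv_cnl h𝒟 hA h, of_isEquiv_cnl h𝒟 hA (IsEquiv.symm' h)⟩

end Transport

section X3

variable {A B C : Type} [CommRing A] [IsLocalRing A] [CommRing B] [IsLocalRing B]
  [CommRing C] [IsLocalRing C]

theorem IsEquiv.baseChangeAlong' {ρ ρ' : GaloisRepAdic A} (h : ρ.IsEquiv ρ') (φ : A →+* B)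
    (hφ : IsLocalHom φ) : (ρ.baseChangeAlong φ hφ).IsEquiv (ρ'.baseChangeAlong φ hφ) :=
  h.elim fun e => ⟨e.baseChangeAlong φ hφ⟩

omit [IsLocalRing A] [IsLocalRing B] [IsLocalRing C] in
theorem mapMat_mapMat (φ : A →+* B) (ψ : B →+* C) (r : GQ →* M2 A) :
    mapMat ψ (mapMat φ r) = mapMat (ψ.comp φ) r := by
  ext σ i j
  rfl

/-- (X3) Base change is functorial up to equivalence. -/
theorem baseChangeAlong_baseChangeAlong_isEquiv (ρ : GaloisRepAdic A) (φ : A →+* B)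
    (hφ : IsLocalHom φ) (ψ : B →+* C) (hψ : IsLocalHom ψ) (h : IsLocalHom (ψ.comp φ)) :
    ((ρ.baseChangeAlong φ hφ).baseChangeAlong ψ hψ).IsEquiv (ρ.baseChangeAlong (ψ.comp φ) h) := by
  obtain ⟨r, hr, e⟩ := exists_isEquiv_ofMat ρ
  have e1 : ((ρ.baseChangeAlong φ hφ).baseChangeAlong ψ hψ).IsEquiv
      ((ofMat (mapMat φ r) (hr.map φ hφ)).baseChangeAlong ψ hψ) :=
    IsEquiv.baseChangeAlong' (IsEquiv.trans' (IsEquiv.baseChangeAlong' e φ hφ)
      (baseChangeAlong_ofMat_isEquiv φ hφ hr)) ψ hψ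
  have e2 := baseChangeAlong_ofMat_isEquiv ψ hψ (hr.map φ hφ)
  have e3 := ofMat_congr ((hr.map φ hφ).map ψ hψ) (mapMat_mapMat φ ψ r)
  have e4 := IsEquiv.symm' (baseChangeAlong_ofMat_isEquiv (ψ.comp φ) h hr)
  have e5 := IsEquiv.symm' (IsEquiv.baseChangeAlong' e (ψ.comp φ) h)
  exact IsEquiv.trans' e1 (IsEquiv.trans' e2 (IsEquiv.trans' e3 (IsEquiv.trans' e4 e5)))

end X3

section X4

variable {𝒪 : Type} [CommRing 𝒪] [IsLocalRing 𝒪]
  {𝒟 : ∀ ⦃A : Type⦄ [CommRing A] [IsLocalRing A] [Algebra 𝒪 A], GaloisRepAdic A → Prop}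

/-- (X4, map) -/
theorem ofMat_map (h𝒟 : IsDeformationCondition 𝒪 𝒟)
    {A B : Type} [CommRing A] [IsLocalRing A] [Algebra 𝒪 A]
    [CommRing B] [IsLocalRing B] [Algebra 𝒪 B]
    (hA : IsArtinianTestAlgebra 𝒪 A) (hB : IsArtinianTestAlgebra 𝒪 B)
    (φ : A →ₐ[𝒪] B) {r : GQ →* M2 A} (hr : MatCont r) (hr' : MatCont (mapMat (φ : A →+* B) r))
    (h : 𝒟 (ofMat r hr)) : 𝒟 (ofMat (mapMat (φ : A →+* B) r) hr') := by
  have hφ : IsLocalHom (φ : A →+* B) :=
    isLocalHom_algHom_of_residue_surjective hB.residue_surjective φ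
  exact h𝒟.of_isEquiv hB (baseChangeAlong_ofMat_isEquiv (φ : A →+* B) hφ hr)
    (h𝒟.baseChangeAlong hA hB φ hφ h)

/-- (X4, inj) -/
theorem ofMat_of_injective (h𝒟 : IsDeformationCondition 𝒪 𝒟)
    {A B : Type} [CommRing A] [IsLocalRing A] [Algebra 𝒪 A]
    [CommRing B] [IsLocalRing B] [Algebra 𝒪 B]
    (hA : IsArtinianTestAlgebra 𝒪 A) (hB : IsArtinianTestAlgebra 𝒪 B)
    (φ : A →ₐ[𝒪] B) (hinj : Function.Injective φ) {r : GQ →* M2 A} (hr : MatCont r)
    (hr' : MatCont (mapMat (φ : A →+* B) r))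
    (h : 𝒟 (ofMat (mapMat (φ : A →+* B) r) hr')) : 𝒟 (ofMat r hr) := by
  have hφ : IsLocalHom (φ : A →+* B) :=
    isLocalHom_algHom_of_residue_surjective hB.residue_surjective φ
  exact h𝒟.of_baseChangeAlong_injective hA hB φ hφ hinj
    (h𝒟.of_isEquiv hB (IsEquiv.symm' (baseChangeAlong_ofMat_isEquiv (φ : A →+* B) hφ hr)) h)

/-- (X4, fib) -/
theorem ofMat_of_fibreProduct (h𝒟 : IsDeformationCondition 𝒪 𝒟)
    {A B C P : Type} [CommRing A] [IsLocalRing A] [Algebra 𝒪 A]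
    [CommRing B] [IsLocalRing B] [Algebra 𝒪 B] [CommRing C] [IsLocalRing C] [Algebra 𝒪 C]
    [CommRing P] [IsLocalRing P] [Algebra 𝒪 P]
    (hA : IsArtinianTestAlgebra 𝒪 A) (hB : IsArtinianTestAlgebra 𝒪 B)
    (hC : IsArtinianTestAlgebra 𝒪 C) (hP : IsArtinianTestAlgebra 𝒪 P)
    (f : A →ₐ[𝒪] C) (g : B →ₐ[𝒪] C) (pA : P →ₐ[𝒪] A) (pB : P →ₐ[𝒪] B)
    (hcomm : f.comp pA = g.comp pB)
    (hinj : Function.Injective (fun x => (pA x, pB x)))
    (hsurj : ∀ a b, f a = g b → ∃ x, pA x = a ∧ pB x = b)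
    {r : GQ →* M2 P} (hr : MatCont r)
    (hrA : MatCont (mapMat (pA : P →+* A) r)) (hrB : MatCont (mapMat (pB : P →+* B) r))
    (h1 : 𝒟 (ofMat (mapMat (pA : P →+* A) r) hrA))
    (h2 : 𝒟 (ofMat (mapMat (pB : P →+* B) r) hrB)) : 𝒟 (ofMat r hr) := by
  have hpA : IsLocalHom (pA : P →+* A) :=
    isLocalHom_algHom_of_residue_surjective hA.residue_surjective pA
  have hpB : IsLocalHom (pB : P →+* B) :=
    isLocalHom_algHom_of_residue_surjective hB.residue_surjective pB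
  exact h𝒟.of_fibreProduct hA hB hC hP f g pA pB hpA hpB hcomm hinj hsurj
    (h𝒟.of_isEquiv hA (IsEquiv.symm' (baseChangeAlong_ofMat_isEquiv (pA : P →+* A) hpA hr)) h1)
    (h𝒟.of_isEquiv hB (IsEquiv.symm' (baseChangeAlong_ofMat_isEquiv (pB : P →+* B) hpB hr)) h2)

/-- (X4, cont) -/
theorem ofMat_iff_forall_surjective (h𝒟 : IsDeformationCondition 𝒪 𝒟)
    {A : Type} [CommRing A] [IsLocalRing A] [Algebra 𝒪 A] (hA : IsCNL 𝒪 A)
    {r : GQ →* M2 A} (hr : MatCont r) :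
    𝒟 (ofMat r hr) ↔ ∀ ⦃B : Type⦄ [CommRing B] [IsLocalRing B] [Algebra 𝒪 B],
      IsArtinianTestAlgebra 𝒪 B → ∀ (q : A →ₐ[𝒪] B), Function.Surjective q →
        ∀ hr' : MatCont (mapMat (q : A →+* B) r), 𝒟 (ofMat (mapMat (q : A →+* B) r) hr') := by
  have := hA.isNoetherianRing
  have := hA.isAdicComplete
  rw [h𝒟.iff_forall_surjective hA.isLocalHom hA.residue_surjective]
  constructor
  · intro h B _ _ _ hB q hq hr'
    have hql : IsLocalHom (q : A →+* B) :=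
      isLocalHom_algHom_of_residue_surjective hB.residue_surjective q
    exact h𝒟.of_isEquiv hB (baseChangeAlong_ofMat_isEquiv (q : A →+* B) hql hr) (h hB q hql hq)
  · intro h B _ _ _ hB q hql hq
    exact h𝒟.of_isEquiv hB (IsEquiv.symm' (baseChangeAlong_ofMat_isEquiv (q : A →+* B) hql hr))
      (h hB q hq (hr.map _ hql))

end X4

end Fermat.Agent.S53
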