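import Fermat.Agent.S53.Functor
import Fermat.Agent.S53.Transport

/-!
# S53: the four closure axioms of `IsPointFunctor` for `FPoint D 𝒟`
-/

set_option autoImplicit false

namespace Fermat.Agent.S53

open IsLocalRing GaloisRep

section Entries

/-- The multiplicativity equations satisfied by the entries of a matrix representation. -/
def IsRepEntries {A : Type} [CommRing A] (x : XG → A) : Prop :=
  (∀ i j, x (1, i, j) = (1 : M2 A) i j) ∧
    ∀ σ τ i j, x (σ * τ, i, j) = ∑ l, x (σ, i, l) * x (τ, l, j)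

theorem isRepEntries_entries {A : Type} [CommRing A] (r : GQ →* M2 A) :
    IsRepEntries (entries r) := by
  refine ⟨fun i j => ?_, fun σ τ i j => ?_⟩
  · change r 1 i j = _
    rw [map_one]
  · change r (σ * τ) i j = ∑ l, r σ i l * r τ l j
    rw [map_mul, Matrix.mul_apply]

theorem IsRepEntries.exists_eq {A : Type} [CommRing A] {x : XG → A} (h : IsRepEntries x) :
    ∃ r : GQ →* M2 A, entries r = x :=
  exists_entries_eq x h.1 h.2

theorem map_one_apply {A B : Type} [CommRing A] [CommRing B] (φ : A →+* B) (i j : Fin 2) :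
    φ ((1 : M2 A) i j) = (1 : M2 B) i j := by
  rw [Matrix.one_apply, Matrix.one_apply]
  split_ifs <;> simp

/-- Reflection of the multiplicativity equations along a "jointly injective" criterion. -/
theorem IsRepEntries.of_forall {A : Type} [CommRing A] {x : XG → A}
    (T : (A → A → Prop))
    (hT : ∀ a b, T a b → a = b)
    (h1 : ∀ i j, T (x (1, i, j)) ((1 : M2 A) i j))
    (h2 : ∀ σ τ i j, T (x (σ * τ, i, j)) (∑ l, x (σ, i, l) * x (τ, l, j))) :
    IsRepEntries x :=
  ⟨fun i j => hT _ _ (h1 i j), fun σ τ i j => hT _ _ (h2 σ τ i j)⟩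

theorem IsRepEntries.map_eq_one {A B : Type} [CommRing A] [CommRing B] (φ : A →+* B) {x : XG → A}
    (h : IsRepEntries (φ ∘ x)) (i j : Fin 2) : φ (x (1, i, j)) = φ ((1 : M2 A) i j) := by
  rw [map_one_apply]
  exact h.1 i j

theorem IsRepEntries.map_eq_mul {A B : Type} [CommRing A] [CommRing B] (φ : A →+* B) {x : XG → A}
    (h : IsRepEntries (φ ∘ x)) (σ τ : GQ) (i j : Fin 2) :
    φ (x (σ * τ, i, j)) = φ (∑ l, x (σ, i, l) * x (τ, l, j)) := by
  rw [map_sum]
  simp only [map_mul]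
  exact h.2 σ τ i j

end Entries

section Lin

variable {𝒪 : Type} [CommRing 𝒪]

theorem lin_mapMat_apply {A B : Type} [CommRing A] [Algebra 𝒪 A] [CommRing B] [Algebra 𝒪 B]
    (φ : A →ₐ[𝒪] B) (r : GQ →* M2 A) (e : GQ →₀ 𝒪) (i j : Fin 2) :
    lin 𝒪 (fun σ => mapMat (φ : A →+* B) r σ) e i j = φ (lin 𝒪 (fun σ => r σ) e i j) := by
  have h := Finsupp.apply_linearCombination 𝒪 (φ.mapMatrix (m := Fin 2)).toLinearMap
    (fun σ => r σ) e
  have h' : lin 𝒪 (fun σ => mapMat (φ : A →+* B) r σ) e =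
      φ.mapMatrix (lin 𝒪 (fun σ => r σ) e) := h.symm
  rw [h']
  rfl

end Lin

section Triv

variable {A : Type} [CommRing A] [IsLocalRing A]

/-- The representation is trivial on an open subgroup. -/
def MatTriv {A : Type} [CommRing A] (r : GQ →* M2 A) : Prop :=
  ∃ L : IntermediateField ℚ (AlgebraicClosure ℚ), FiniteDimensional ℚ L ∧
    ∀ σ : GQ, (∀ x ∈ L, σ x = x) → r σ = 1

theorem MatTriv.matCont {r : GQ →* M2 A} (h : MatTriv r) : MatCont r := by
  intro n
  obtain ⟨L, hL, hr⟩ := h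
  refine ⟨L, hL, fun σ hσ i j => ?_⟩
  rw [hr σ hσ, sub_self]
  exact Ideal.zero_mem _

theorem MatCont.matTriv_of_pow_eq_bot {r : GQ →* M2 A} (h : MatCont r) {n : ℕ}
    (hn : maximalIdeal A ^ n = ⊥) : MatTriv r := by
  obtain ⟨L, hL, hr⟩ := h n
  refine ⟨L, hL, fun σ hσ => ?_⟩
  ext i j
  have := hr σ hσ i j
  rw [hn, Ideal.mem_bot, Matrix.sub_apply, sub_eq_zero] at this
  exact this

theorem MatCont.matTriv [IsArtinianRing A] {r : GQ →* M2 A} (h : MatCont r) : MatTriv r := by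
  obtain ⟨n, hn⟩ := (isArtinianRing_iff_isNilpotent_maximalIdeal A).mp ‹_›
  exact h.matTriv_of_pow_eq_bot hn

theorem MatTriv.of_pair {P A B : Type} [CommRing P] [CommRing A] [CommRing B]
    (pA : P →+* A) (pB : P →+* B) (hinj : Function.Injective (fun x => (pA x, pB x)))
    {r : GQ →* M2 P} (hA : MatTriv (mapMat pA r)) (hB : MatTriv (mapMat pB r)) : MatTriv r := by
  obtain ⟨L, hL, h1⟩ := hA
  obtain ⟨L', hL', h2⟩ := hB
  refine ⟨L ⊔ L', IntermediateField.finiteDimensional_sup L L', fun σ hσ => ?_⟩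
  have e1 := h1 σ fun x hx => hσ x ((le_sup_left : L ≤ L ⊔ L') hx)
  have e2 := h2 σ fun x hx => hσ x ((le_sup_right : L' ≤ L ⊔ L') hx)
  ext i j
  apply hinj
  have e1' : pA (r σ i j) = (1 : M2 A) i j := congrFun (congrFun e1 i) j
  have e2' : pB (r σ i j) = (1 : M2 B) i j := congrFun (congrFun e2 i) j
  simp only [Prod.mk.injEq]
  exact ⟨by rw [e1', map_one_apply], by rw [e2', map_one_apply]⟩

end Triv

section NormLift

variable {𝒪 : Type} [CommRing 𝒪] [IsLocalRing 𝒪] {ρbar : ResidualGaloisRep (ResidueField 𝒪)}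

theorem mem_maximalIdeal_of_map {A B : Type} [CommRing A] [IsLocalRing A] [CommRing B]
    [IsLocalRing B] (φ : A →+* B) {a : A} (h : φ a ∈ maximalIdeal B) : a ∈ maximalIdeal A := by
  rw [mem_maximalIdeal, mem_nonunits_iff] at h ⊢
  exact fun ha => h (ha.map φ)

theorem IsNormLift.map' {D : NormData 𝒪 ρbar} {A B : Type} [CommRing A] [IsLocalRing A]
    [Algebra 𝒪 A] [CommRing B] [IsLocalRing B] [Algebra 𝒪 B] (φ : A →ₐ[𝒪] B)
    (hφ : IsLocalHom (φ : A →+* B)) {r : GQ →* M2 A} (h : IsNormLift D r) :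
    IsNormLift D (mapMat (φ : A →+* B) r) where
  cont := h.cont.map _ hφ
  lifts σ i j := by
    have h1 : mapMat (φ : A →+* B) r σ i j - algebraMap 𝒪 B (D.rt σ i j) =
        (φ : A →+* B) (r σ i j - algebraMap 𝒪 A (D.rt σ i j)) := by
      rw [map_sub, mapMat_apply]
      congr 1
      exact (φ.commutes _).symm
    rw [h1]
    exact map_nonunit (φ : A →+* B) _ (h.lifts σ i j)
  diag01 := by rw [lin_mapMat_apply, h.diag01, map_zero]
  diag10 := by rw [lin_mapMat_apply, h.diag10, map_zero]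
  one10 := by rw [mapMat_apply, h.one10, map_one]

/-- Reflection of `IsNormLift` (except continuity) along a criterion for equality. -/
theorem IsNormLift.of_pair' {D : NormData 𝒪 ρbar} {P A B : Type} [CommRing P] [IsLocalRing P]
    [Algebra 𝒪 P] [CommRing A] [IsLocalRing A] [Algebra 𝒪 A] [CommRing B] [IsLocalRing B]
    [Algebra 𝒪 B] [IsArtinianRing A] [IsArtinianRing B] (pA : P →ₐ[𝒪] A) (pB : P →ₐ[𝒪] B)
    (hinj : Function.Injective (fun x => (pA x, pB x))) {r : GQ →* M2 P}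
    (hA : IsNormLift D (mapMat (pA : P →+* A) r)) (hB : IsNormLift D (mapMat (pB : P →+* B) r)) :
    IsNormLift D r where
  cont := (MatTriv.of_pair (pA : P →+* A) (pB : P →+* B) hinj hA.cont.matTriv
    hB.cont.matTriv).matCont
  lifts σ i j := by
    apply mem_maximalIdeal_of_map (pA : P →+* A)
    have h1 : (pA : P →+* A) (r σ i j - algebraMap 𝒪 P (D.rt σ i j)) =
        mapMat (pA : P →+* A) r σ i j - algebraMap 𝒪 A (D.rt σ i j) := by
      rw [map_sub, mapMat_apply]
      congr 1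
      exact pA.commutes _
    rw [h1]
    exact hA.lifts σ i j
  diag01 := by
    apply hinj
    have h1 := hA.diag01
    have h2 := hB.diag01
    rw [lin_mapMat_apply] at h1 h2
    simp only [Prod.mk.injEq, map_zero]
    exact ⟨h1, h2⟩
  diag10 := by
    apply hinj
    have h1 := hA.diag10
    have h2 := hB.diag10
    rw [lin_mapMat_apply] at h1 h2
    simp only [Prod.mk.injEq, map_zero]
    exact ⟨h1, h2⟩
  one10 := by
    apply hinj
    have h1 : pA (r D.g1 1 0) = 1 := hA.one10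
    have h2 : pB (r D.g1 1 0) = 1 := hB.one10
    simp only [Prod.mk.injEq, map_one]
    exact ⟨h1, h2⟩

end NormLift

section Quotients

variable {𝒪 : Type} [CommRing 𝒪] [IsLocalRing 𝒪]

/-- `A ⧸ 𝔪ⁿ` is an Artinian test algebra. (Local copy under a different name of a toolkit lemma
of `TestAlgebra.lean`.) -/
theorem exists_isArtinianTestAlgebra_quotient_pow' (A : Type) [CommRing A] [IsLocalRing A]
    [Algebra 𝒪 A] (hA : IsCNL 𝒪 A) (n : ℕ) (hn : n ≠ 0) :
    ∃ _ : IsLocalRing (A ⧸ maximalIdeal A ^ n),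
      IsArtinianTestAlgebra 𝒪 (A ⧸ maximalIdeal A ^ n) ∧
      maximalIdeal (A ⧸ maximalIdeal A ^ n) ^ n = ⊥ := by
  have := hA.isNoetherianRing
  have hne : maximalIdeal A ^ n ≠ ⊤ := by
    intro h
    have h1 : maximalIdeal A ^ n ≤ maximalIdeal A := Ideal.pow_le_self hn
    rw [h] at h1
    exact (Ideal.IsMaximal.ne_top (inferInstance : (maximalIdeal A).IsMaximal)) (top_le_iff.mp h1)
  have hnt : Nontrivial (A ⧸ maximalIdeal A ^ n) := Ideal.Quotient.nontrivial_iff.mpr hne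
  have hloc : IsLocalRing (A ⧸ maximalIdeal A ^ n) :=
    IsLocalRing.of_surjective' (Ideal.Quotient.mk (maximalIdeal A ^ n)) Ideal.Quotient.mk_surjective
  have hmk : IsLocalHom (Ideal.Quotient.mk (maximalIdeal A ^ n)) :=
    IsLocalHom.of_surjective _ Ideal.Quotient.mk_surjective
  have hle : maximalIdeal (A ⧸ maximalIdeal A ^ n) ≤
      (maximalIdeal A).map (Ideal.Quotient.mk (maximalIdeal A ^ n)) := by
    intro y hy
    obtain ⟨a, rfl⟩ := Ideal.Quotient.mk_surjective y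
    exact Ideal.mem_map_of_mem _ (mem_maximalIdeal_of_map _ hy)
  have hpow : maximalIdeal (A ⧸ maximalIdeal A ^ n) ^ n = ⊥ := by
    rw [eq_bot_iff]
    refine (Ideal.pow_right_mono hle n).trans ?_
    rw [← Ideal.map_pow, Ideal.map_quotient_self]
  refine ⟨hloc, ⟨?_, ?_, ?_⟩, hpow⟩
  · have h1 := hA.isLocalHom
    refine ⟨fun c hc => ?_⟩
    have hc' : IsUnit (Ideal.Quotient.mk (maximalIdeal A ^ n) (algebraMap 𝒪 A c)) := hc
    exact h1.map_nonunit c (hmk.map_nonunit _ hc')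
  · intro y
    obtain ⟨b, rfl⟩ := residue_surjective y
    obtain ⟨a, rfl⟩ := Ideal.Quotient.mk_surjective b
    obtain ⟨c, hc⟩ := hA.residue_surjective (residue A a)
    refine ⟨c, ?_⟩
    have h2 : algebraMap 𝒪 A c - a ∈ maximalIdeal A := by
      rw [← residue_eq_zero_iff, map_sub, sub_eq_zero]
      exact hc
    have h3 : Ideal.Quotient.mk (maximalIdeal A ^ n) (algebraMap 𝒪 A c - a) ∈
        maximalIdeal (A ⧸ maximalIdeal A ^ n) := map_nonunit _ _ h2
    rw [← residue_eq_zero_iff, map_sub, map_sub, sub_eq_zero] at h3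
    exact h3
  · exact (isArtinianRing_iff_isNilpotent_maximalIdeal _).mpr ⟨n, hpow⟩

theorem eq_of_forall_mk_pow_eq {A : Type} [CommRing A] [IsLocalRing A] [IsNoetherianRing A] {a b : A}
    (h : ∀ n : ℕ, n ≠ 0 → Ideal.Quotient.mk (maximalIdeal A ^ n) a =
      Ideal.Quotient.mk (maximalIdeal A ^ n) b) : a = b := by
  rw [← sub_eq_zero, ← Ideal.mem_bot,
    ← Ideal.iInf_pow_eq_bot_of_isLocalRing (maximalIdeal A) (Ideal.IsMaximal.ne_top inferInstance),
    Ideal.mem_iInf]
  intro n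
  by_cases hn : n = 0
  · subst hn; simp
  · exact Ideal.Quotient.eq.mp (h n hn)

end Quotients

section Fields

variable {𝒪 : Type} [CommRing 𝒪] [IsLocalRing 𝒪] {ρbar : ResidualGaloisRep (ResidueField 𝒪)}
  {𝒟 : ∀ ⦃A : Type⦄ [CommRing A] [IsLocalRing A] [Algebra 𝒪 A], GaloisRepAdic A → Prop}

theorem FPoint.map (h𝒟 : IsDeformationCondition 𝒪 𝒟) (D : NormData 𝒪 ρbar) :
    ∀ ⦃A B : Type⦄ [CommRing A] [IsLocalRing A] [Algebra 𝒪 A]
    [CommRing B] [IsLocalRing B] [Algebra 𝒪 B],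
    IsArtinianTestAlgebra 𝒪 A → IsArtinianTestAlgebra 𝒪 B →
    ∀ (φ : A →ₐ[𝒪] B) ⦃x : XG → A⦄, FPoint D 𝒟 x → FPoint D 𝒟 (φ ∘ x) := by
  intro A B _ _ _ _ _ _ hA hB φ x hx
  obtain ⟨r, h, rfl, hD⟩ := hx
  have hφ : IsLocalHom (φ : A →+* B) :=
    isLocalHom_algHom_of_residue_surjective hB.residue_surjective φ
  exact ⟨mapMat (φ : A →+* B) r, h.map' φ hφ, rfl, ofMat_map h𝒟 hA hB φ h.cont _ hD⟩

theorem FPoint.of_fibreProduct (h𝒟 : IsDeformationCondition 𝒪 𝒟) (D : NormData 𝒪 ρbar) :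
    ∀ ⦃A B C P : Type⦄ [CommRing A] [IsLocalRing A] [Algebra 𝒪 A]
    [CommRing B] [IsLocalRing B] [Algebra 𝒪 B] [CommRing C] [IsLocalRing C] [Algebra 𝒪 C]
    [CommRing P] [IsLocalRing P] [Algebra 𝒪 P],
    IsArtinianTestAlgebra 𝒪 A → IsArtinianTestAlgebra 𝒪 B →
    IsArtinianTestAlgebra 𝒪 C → IsArtinianTestAlgebra 𝒪 P →
    ∀ (f : A →ₐ[𝒪] C) (g : B →ₐ[𝒪] C) (pA : P →ₐ[𝒪] A) (pB : P →ₐ[𝒪] B),
      f.comp pA = g.comp pB →
      Function.Injective (fun x => (pA x, pB x)) →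
      (∀ a b, f a = g b → ∃ x, pA x = a ∧ pB x = b) →
      ∀ ⦃x : XG → P⦄, FPoint D 𝒟 (pA ∘ x) → FPoint D 𝒟 (pB ∘ x) → FPoint D 𝒟 x := by
  intro A B C P _ _ _ _ _ _ _ _ _ _ _ _ hA hB hC hP f g pA pB hcomm hinj hsurj x hxA hxB
  obtain ⟨rA, hnA, hrA, hDA⟩ := hxA
  obtain ⟨rB, hnB, hrB, hDB⟩ := hxB
  have := hA.isArtinian
  have := hB.isArtinian
  have heA : IsRepEntries ((pA : P →+* A) ∘ x) := by
    have := isRepEntries_entries rA
    rwa [hrA] at this
  have heB : IsRepEntries ((pB : P →+* B) ∘ x) := by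
    have := isRepEntries_entries rB
    rwa [hrB] at this
  have hx : IsRepEntries x := by
    refine ⟨fun i j => hinj ?_, fun σ τ i j => hinj ?_⟩
    · exact Prod.ext (heA.map_eq_one (pA : P →+* A) i j) (heB.map_eq_one (pB : P →+* B) i j)
    · exact Prod.ext (heA.map_eq_mul (pA : P →+* A) σ τ i j)
        (heB.map_eq_mul (pB : P →+* B) σ τ i j)
  obtain ⟨r, rfl⟩ := hx.exists_eq
  have e1 : rA = mapMat (pA : P →+* A) r := entries_injective hrA
  have e2 : rB = mapMat (pB : P →+* B) r := entries_injective hrB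
  subst e1 e2
  have hn : IsNormLift D r := IsNormLift.of_pair' pA pB hinj hnA hnB
  exact ⟨r, hn, rfl, ofMat_of_fibreProduct h𝒟 hA hB hC hP f g pA pB hcomm hinj hsurj hn.cont
    hnA.cont hnB.cont hDA hDB⟩

theorem FPoint.of_injective (h𝒟 : IsDeformationCondition 𝒪 𝒟) (D : NormData 𝒪 ρbar) :
    ∀ ⦃A B : Type⦄ [CommRing A] [IsLocalRing A] [Algebra 𝒪 A]
    [CommRing B] [IsLocalRing B] [Algebra 𝒪 B],
    IsArtinianTestAlgebra 𝒪 A → IsArtinianTestAlgebra 𝒪 B →
    ∀ (φ : A →ₐ[𝒪] B), Function.Injective φ → ∀ ⦃x : XG → A⦄, FPoint D 𝒟 (φ ∘ x) →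
      FPoint D 𝒟 x := by
  intro A B _ _ _ _ _ _ hA hB φ hφ x hx
  obtain ⟨rB, hnB, hrB, hDB⟩ := hx
  have := hB.isArtinian
  have hinj : Function.Injective (fun x => (φ x, φ x)) := fun a b hab => hφ (Prod.ext_iff.mp hab).1
  have heB : IsRepEntries ((φ : A →+* B) ∘ x) := by
    have := isRepEntries_entries rB
    rwa [hrB] at this
  have hx : IsRepEntries x :=
    ⟨fun i j => hφ (heB.map_eq_one (φ : A →+* B) i j),
      fun σ τ i j => hφ (heB.map_eq_mul (φ : A →+* B) σ τ i j)⟩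
  obtain ⟨r, rfl⟩ := hx.exists_eq
  have e1 : rB = mapMat (φ : A →+* B) r := entries_injective hrB
  subst e1
  have hn : IsNormLift D r := IsNormLift.of_pair' φ φ hinj hnB hnB
  exact ⟨r, hn, rfl, ofMat_of_injective h𝒟 hA hB φ hφ hn.cont hnB.cont hDB⟩

theorem FPoint.iff_forall_surjective (h𝒟 : IsDeformationCondition 𝒪 𝒟) (D : NormData 𝒪 ρbar) :
    ∀ ⦃A : Type⦄ [CommRing A] [IsLocalRing A] [Algebra 𝒪 A],
    IsCNL 𝒪 A → ∀ (x : XG → A),
      FPoint D 𝒟 x ↔ ∀ ⦃B : Type⦄ [CommRing B] [IsLocalRing B] [Algebra 𝒪 B],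
        IsArtinianTestAlgebra 𝒪 B →
        ∀ (q : A →ₐ[𝒪] B), Function.Surjective q → FPoint D 𝒟 (q ∘ x) := by
  intro A _ _ _ hA x
  have := hA.isNoetherianRing
  constructor
  · rintro ⟨r, h, rfl, hD⟩ B _ _ _ hB q hq
    have hql : IsLocalHom (q : A →+* B) :=
      isLocalHom_algHom_of_residue_surjective hB.residue_surjective q
    exact ⟨mapMat (q : A →+* B) r, h.map' q hql, rfl,
      (ofMat_iff_forall_surjective h𝒟 hA h.cont).mp hD hB q hq _⟩
  · intro H
    -- the quotients `A ⧸ 𝔪ⁿ`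
    have key : ∀ n : ℕ, n ≠ 0 → ∃ _ : IsLocalRing (A ⧸ maximalIdeal A ^ n),
        maximalIdeal (A ⧸ maximalIdeal A ^ n) ^ n = ⊥ ∧
        FPoint D 𝒟 ((Ideal.Quotient.mkₐ 𝒪 (maximalIdeal A ^ n)) ∘ x) := by
      intro n hn
      obtain ⟨hloc, htest, hpow⟩ := exists_isArtinianTestAlgebra_quotient_pow' A hA n hn
      exact ⟨hloc, hpow, H htest _ (Ideal.Quotient.mkₐ_surjective 𝒪 _)⟩
    have hx : IsRepEntries x := by
      refine ⟨fun i j => eq_of_forall_mk_pow_eq fun n hn => ?_,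
        fun σ τ i j => eq_of_forall_mk_pow_eq fun n hn => ?_⟩
      · obtain ⟨hloc, -, r, -, hr, -⟩ := key n hn
        have he : IsRepEntries ((Ideal.Quotient.mk (maximalIdeal A ^ n)) ∘ x) := by
          have := isRepEntries_entries r
          rwa [hr] at this
        exact he.map_eq_one _ i j
      · obtain ⟨hloc, -, r, -, hr, -⟩ := key n hn
        have he : IsRepEntries ((Ideal.Quotient.mk (maximalIdeal A ^ n)) ∘ x) := by
          have := isRepEntries_entries r
          rwa [hr] at this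
        exact he.map_eq_mul _ σ τ i j
    obtain ⟨r, rfl⟩ := hx.exists_eq
    have key' : ∀ n : ℕ, n ≠ 0 → ∃ _ : IsLocalRing (A ⧸ maximalIdeal A ^ n),
        maximalIdeal (A ⧸ maximalIdeal A ^ n) ^ n = ⊥ ∧
        IsNormLift D (mapMat ((Ideal.Quotient.mkₐ 𝒪 (maximalIdeal A ^ n) :
          A →ₐ[𝒪] A ⧸ maximalIdeal A ^ n) : A →+* A ⧸ maximalIdeal A ^ n) r) := by
      intro n hn
      obtain ⟨hloc, hpow, r', hn', hr', -⟩ := key n hn
      have e1 : r' = mapMat ((Ideal.Quotient.mkₐ 𝒪 (maximalIdeal A ^ n) :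
          A →ₐ[𝒪] A ⧸ maximalIdeal A ^ n) : A →+* A ⧸ maximalIdeal A ^ n) r :=
        entries_injective hr'
      subst e1
      exact ⟨hloc, hpow, hn'⟩
    have hn : IsNormLift D r :=
      { cont := by
          intro n
          by_cases hn : n = 0
          · subst hn
            exact ⟨⊥, inferInstance, fun σ _ i j => by simp⟩
          · obtain ⟨hloc, hpow, hnl⟩ := key' n hn
            obtain ⟨L, hL, h⟩ := hnl.cont.matTriv_of_pow_eq_bot hpow
            refine ⟨L, hL, fun σ hσ i j => ?_⟩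
            have h1 := congrFun (congrFun (h σ hσ) i) j
            have h2 : Ideal.Quotient.mk (maximalIdeal A ^ n) (r σ i j) =
                (1 : M2 (A ⧸ maximalIdeal A ^ n)) i j := h1
            rw [← map_one_apply (Ideal.Quotient.mk (maximalIdeal A ^ n))] at h2
            rw [Matrix.sub_apply]
            exact Ideal.Quotient.eq.mp h2
        lifts := by
          intro σ i j
          obtain ⟨hloc, -, hnl⟩ := key' 1 one_ne_zero
          apply mem_maximalIdeal_of_map (Ideal.Quotient.mk (maximalIdeal A ^ 1))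
          have h1 := hnl.lifts σ i j
          rw [map_sub]
          exact h1
        diag01 := by
          refine eq_of_forall_mk_pow_eq fun n hn => ?_
          obtain ⟨hloc, -, hnl⟩ := key' n hn
          have h1 := hnl.diag01
          rw [lin_mapMat_apply] at h1
          rw [map_zero]
          exact h1
        diag10 := by
          refine eq_of_forall_mk_pow_eq fun n hn => ?_
          obtain ⟨hloc, -, hnl⟩ := key' n hn
          have h1 := hnl.diag10
          rw [lin_mapMat_apply] at h1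
          rw [map_zero]
          exact h1
        one10 := by
          refine eq_of_forall_mk_pow_eq fun n hn => ?_
          obtain ⟨hloc, -, hnl⟩ := key' n hn
          have h1 := hnl.one10
          rw [map_one]
          exact h1 }
    refine ⟨r, hn, rfl, (ofMat_iff_forall_surjective h𝒟 hA hn.cont).mpr ?_⟩
    intro B _ _ _ hB q hq hr'
    obtain ⟨r', hn', hr'', hD⟩ := H hB q hq
    have e1 : r' = mapMat (q : A →+* B) r := entries_injective hr''
    subst e1
    exact hD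

end Fields

end Fermat.Agent.S53
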