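import Fermat.Agent.S53.Defs

set_option autoImplicit false

namespace Fermat.Agent.S53

open IsLocalRing TensorProduct

section Basic

variable {A : Type} [CommRing A] [IsLocalRing A]

omit [IsLocalRing A] in
/-- coordinates of an element of `I • ⊤` lie in `I`. -/
theorem repr_mem_of_mem_smul_top {V : Type} [AddCommGroup V] [Module A V]
    (b : Module.Basis (Fin 2) A V) (I : Ideal A) {x : V}
    (hx : x ∈ I • (⊤ : Submodule A V)) (i : Fin 2) : b.repr x i ∈ I := by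
  refine Submodule.smul_induction_on (p := fun x => b.repr x i ∈ I) hx ?_ ?_
  · intro a ha w _
    simpa using Ideal.mul_mem_right _ _ ha
  · intro x y hx hy
    simpa using Ideal.add_mem _ hx hy

/-- The matrix representation of a `GaloisRepAdic` in a basis. -/
noncomputable def matOf (ρ : GaloisRepAdic A) (b : Module.Basis (Fin 2) A ρ.V) : GQ →* M2 A :=
  ((LinearMap.toMatrixAlgEquiv b : Module.End A ρ.V ≃ₐ[A] M2 A) : Module.End A ρ.V →* M2 A).comp ρ.ρ

theorem matOf_apply (ρ : GaloisRepAdic A) (b : Module.Basis (Fin 2) A ρ.V) (σ : GQ) :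
    matOf ρ b σ = LinearMap.toMatrix b b (ρ.ρ σ) := rfl

theorem matCont_matOf (ρ : GaloisRepAdic A) (b : Module.Basis (Fin 2) A ρ.V) :
    MatCont (matOf ρ b) := by
  intro n
  obtain ⟨L, hL, h⟩ := ρ.isAdicContinuous n
  refine ⟨L, hL, fun σ hσ i j => ?_⟩
  have h1 := repr_mem_of_mem_smul_top b _ (h σ hσ (b j)) i
  have h2 : (matOf ρ b σ - 1) i j = b.repr (ρ.ρ σ (b j) - b j) i := by
    rw [matOf_apply, Matrix.sub_apply, LinearMap.toMatrix_apply, map_sub, Finsupp.sub_apply,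
      Module.Basis.repr_self, Matrix.one_apply, Finsupp.single_apply]
    simp only [eq_comm]
  rw [h2]
  exact h1

/-- constructor for equivalences with target `ofMat`, in plain terms -/
theorem isEquiv_ofMat_of {ρ : GaloisRepAdic A} {r : GQ →* M2 A} (hr : MatCont r)
    (f : ρ.V ≃ₗ[A] (Fin 2 → A)) (h : ∀ σ x, f (ρ.ρ σ x) = (r σ).mulVec (f x)) :
    ρ.IsEquiv (ofMat r hr) :=
  ⟨{ toLinearEquiv := f, map_apply := h }⟩

/-- destructor for equivalences between `ofMat`s, in plain terms -/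
theorem exists_of_isEquiv_ofMat {r r' : GQ →* M2 A} {hr : MatCont r} {hr' : MatCont r'}
    (h : (ofMat r hr).IsEquiv (ofMat r' hr')) :
    ∃ f : (Fin 2 → A) ≃ₗ[A] (Fin 2 → A), ∀ σ x, f ((r σ).mulVec x) = (r' σ).mulVec (f x) :=
  h.elim fun e => ⟨e.toLinearEquiv, e.map_apply⟩

theorem isEquiv_ofMat_matOf (ρ : GaloisRepAdic A) (b : Module.Basis (Fin 2) A ρ.V) :
    ρ.IsEquiv (ofMat (matOf ρ b) (matCont_matOf ρ b)) :=
  isEquiv_ofMat_of _ b.equivFun fun σ x => by
    rw [matOf_apply]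
    exact (LinearMap.toMatrix_mulVec_repr b b (ρ.ρ σ) x).symm

theorem exists_isEquiv_ofMat (ρ : GaloisRepAdic A) :
    ∃ (r : GQ →* M2 A) (hr : MatCont r), ρ.IsEquiv (ofMat r hr) :=
  ⟨_, _, isEquiv_ofMat_matOf ρ (Module.finBasisOfFinrankEq A ρ.V ρ.finrank_eq)⟩

theorem IsEquiv.symm' {ρ₁ ρ₂ : GaloisRepAdic A} (h : ρ₁.IsEquiv ρ₂) : ρ₂.IsEquiv ρ₁ :=
  h.elim fun e => ⟨e.symm⟩

theorem IsEquiv.trans' {ρ₁ ρ₂ ρ₃ : GaloisRepAdic A} (h : ρ₁.IsEquiv ρ₂) (h' : ρ₂.IsEquiv ρ₃) :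
    ρ₁.IsEquiv ρ₃ :=
  h.elim fun e => h'.elim fun e' => ⟨e.trans e'⟩

theorem ofMat_congr {r r' : GQ →* M2 A} (hr : MatCont r) (h : r = r') :
    (ofMat r hr).IsEquiv (ofMat r' (h ▸ hr)) := by
  subst h
  exact ⟨GaloisRepAdic.Equiv.refl _⟩

/-- equivalence of `ofMat`s is conjugacy by an invertible matrix -/
theorem ofMat_isEquiv_iff {r r' : GQ →* M2 A} (hr : MatCont r) (hr' : MatCont r') :
    (ofMat r hr).IsEquiv (ofMat r' hr') ↔ ∃ U : M2 A, IsUnit U ∧ ∀ σ, U * r σ = r' σ * U := by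
  constructor
  · intro h
    obtain ⟨f, hf⟩ := exists_of_isEquiv_ofMat h
    refine ⟨LinearMap.toMatrix' f.toLinearMap, ?_, fun σ => ?_⟩
    · refine IsUnit.of_mul_eq_one (LinearMap.toMatrix' f.symm.toLinearMap) ?_
      rw [← LinearMap.toMatrix'_comp]
      simp
    · have h1 : f.toLinearMap ∘ₗ Matrix.toLin' (r σ) = Matrix.toLin' (r' σ) ∘ₗ f.toLinearMap :=
        LinearMap.ext fun x => hf σ x
      have h2 := congrArg LinearMap.toMatrix' h1
      rwa [LinearMap.toMatrix'_comp, LinearMap.toMatrix'_comp, LinearMap.toMatrix'_toLin',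
        LinearMap.toMatrix'_toLin'] at h2
  · rintro ⟨U, ⟨u, rfl⟩, h⟩
    have h1 : Matrix.toLin' (u : M2 A) ∘ₗ Matrix.toLin' ((u⁻¹ : (M2 A)ˣ) : M2 A) = LinearMap.id := by
      rw [← Matrix.toLin'_mul, Units.mul_inv, Matrix.toLin'_one]
    have h2 : Matrix.toLin' ((u⁻¹ : (M2 A)ˣ) : M2 A) ∘ₗ Matrix.toLin' (u : M2 A) = LinearMap.id := by
      rw [← Matrix.toLin'_mul, Units.inv_mul, Matrix.toLin'_one]
    refine isEquiv_ofMat_of (ρ := ofMat r hr) hr' (LinearEquiv.ofLinearMap (Matrix.toLin' (u : M2 A))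
                (Matrix.toLin' ((u⁻¹ : (M2 A)ˣ) : M2 A)) h1 h2) fun σ x => ?_
    have h3 : ∀ y : Fin 2 → A, (u : M2 A).mulVec ((r σ).mulVec y) =
        (r' σ).mulVec ((u : M2 A).mulVec y) := fun y => by
      rw [Matrix.mulVec_mulVec, Matrix.mulVec_mulVec, h σ]
    exact h3 x

theorem MatCont.map {B : Type} [CommRing B] [IsLocalRing B] (φ : A →+* B) (hφ : IsLocalHom φ)
    {r : GQ →* M2 A} (hr : MatCont r) : MatCont (mapMat φ r) := by
  intro n
  obtain ⟨L, hL, h⟩ := hr n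
  refine ⟨L, hL, fun σ hσ i j => ?_⟩
  have hmap : (maximalIdeal A ^ n).map φ ≤ maximalIdeal B ^ n := by
    rw [Ideal.map_pow]
    exact Ideal.pow_right_mono (Ideal.map_le_iff_le_comap.mpr fun a ha =>
      Ideal.mem_comap.mpr (haveI := hφ; map_nonunit φ a ha)) n
  have h1 : (mapMat φ r σ - 1) i j = φ ((r σ - 1) i j) := by
    simp only [Matrix.sub_apply, mapMat_apply, map_sub, Matrix.one_apply]
    split_ifs <;> simp
  rw [h1]
  exact hmap (Ideal.mem_map_of_mem φ (h σ hσ i j))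

/-- base change of `ofMat` is `ofMat` of the pushed-forward matrices -/
theorem baseChangeAlong_ofMat_isEquiv {B : Type} [CommRing B] [IsLocalRing B] (φ : A →+* B)
    (hφ : IsLocalHom φ) {r : GQ →* M2 A} (hr : MatCont r) :
    ((ofMat r hr).baseChangeAlong φ hφ).IsEquiv (ofMat (mapMat φ r) (hr.map φ hφ)) := by
  let _ : Algebra A B := φ.toAlgebra
  refine isEquiv_ofMat_of (ρ := (ofMat r hr).baseChangeAlong φ hφ) _
    (TensorProduct.piScalarRight A B B (Fin 2)) fun σ x => ?_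
  have key : ∀ y : B ⊗[A] (Fin 2 → A),
      TensorProduct.piScalarRight A B B (Fin 2) ((Matrix.toLin' (r σ)).baseChange B y) =
        (mapMat φ r σ).mulVec (TensorProduct.piScalarRight A B B (Fin 2) y) := by
    intro y
    induction y using TensorProduct.induction_on with
    | zero => simp
    | tmul b v =>
      funext i
      simp only [LinearMap.baseChange_tmul, TensorProduct.piScalarRight_apply,
        TensorProduct.piScalarRightHom_tmul, Matrix.toLin'_apply, Matrix.mulVec, dotProduct,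
        mapMat_apply, Fin.sum_univ_two, Algebra.smul_def]
      have : ∀ a : A, algebraMap A B a = φ a := fun _ => rfl
      simp only [this, map_add, map_mul]
      ring
    | add x y hx hy => simp only [map_add, hx, hy, Matrix.mulVec_add]
  exact key x

end Basic

section Residual

theorem residual_isEquiv_iff {K : Type} [Field K] (ρ₁ ρ₂ : ResidualGaloisRep K)
    (b₁ : Module.Basis (Fin 2) K ρ₁.V) (b₂ : Module.Basis (Fin 2) K ρ₂.V) :
    ρ₁.IsEquiv ρ₂ ↔ ∃ U : M2 K, IsUnit U ∧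
      ∀ σ, U * LinearMap.toMatrix b₁ b₁ (ρ₁.ρ σ) = LinearMap.toMatrix b₂ b₂ (ρ₂.ρ σ) * U := by
  constructor
  · rintro ⟨e⟩
    refine ⟨LinearMap.toMatrix b₁ b₂ e.toLinearEquiv.toLinearMap, ?_, fun σ => ?_⟩
    · refine IsUnit.of_mul_eq_one (LinearMap.toMatrix b₂ b₁ e.toLinearEquiv.symm.toLinearMap) ?_
      rw [← LinearMap.toMatrix_comp]
      simp
    · rw [← LinearMap.toMatrix_comp, ← LinearMap.toMatrix_comp]
      congr 1
      exact LinearMap.ext fun x => e.map_apply σ x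
  · rintro ⟨U, ⟨u, rfl⟩, h⟩
    have h1 : Matrix.toLin b₁ b₂ (u : M2 K) ∘ₗ Matrix.toLin b₂ b₁ ((u⁻¹ : (M2 K)ˣ) : M2 K)
        = LinearMap.id := by
      rw [← Matrix.toLin_mul, Units.mul_inv, Matrix.toLin_one]
    have h2 : Matrix.toLin b₂ b₁ ((u⁻¹ : (M2 K)ˣ) : M2 K) ∘ₗ Matrix.toLin b₁ b₂ (u : M2 K)
        = LinearMap.id := by
      rw [← Matrix.toLin_mul, Units.inv_mul, Matrix.toLin_one]
    refine ⟨{ toLinearEquiv := LinearEquiv.ofLinearMap _ _ h1 h2, map_apply := fun σ x => ?_ }⟩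
    have h3 : Matrix.toLin b₁ b₂ (u : M2 K) ∘ₗ ρ₁.ρ σ = ρ₂.ρ σ ∘ₗ Matrix.toLin b₁ b₂ (u : M2 K) := by
      apply (LinearMap.toMatrix b₁ b₂).injective
      rw [LinearMap.toMatrix_comp b₁ b₁ b₂, LinearMap.toMatrix_comp b₁ b₂ b₂,
        LinearMap.toMatrix_toLin, h σ]
    exact congrArg (fun f => f x) h3

variable {A : Type} [CommRing A] [IsLocalRing A]

/-- the standard basis of the residual representation of `ofMat r` -/
noncomputable def resBasis (r : GQ →* M2 A) (hr : MatCont r) :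
    Module.Basis (Fin 2) (ResidueField A) (ofMat r hr).residual.V :=
  (Algebra.TensorProduct.basis (ResidueField A) (Pi.basisFun A (Fin 2)) :
    Module.Basis (Fin 2) (ResidueField A) (ResidueField A ⊗[A] (Fin 2 → A)))

theorem toMatrix_resBasis (r : GQ →* M2 A) (hr : MatCont r) (σ : GQ) :
    LinearMap.toMatrix (resBasis r hr) (resBasis r hr) ((ofMat r hr).residual.ρ σ) =
      (r σ).map (residue A) := by
  have := LinearMap.toMatrix_baseChange (ResidueField A) (Matrix.toLin' (r σ))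
    (Pi.basisFun A (Fin 2)) (Pi.basisFun A (Fin 2))
  rw [LinearMap.toMatrix_eq_toMatrix', LinearMap.toMatrix'_toLin'] at this
  exact this

/-- the base-changed basis of `ρ.baseChangeAlong ψ` -/
noncomputable def bcBasis {k K : Type} [Field k] [Field K] (ψ : k →+* K) (ρ : ResidualGaloisRep k)
    (b : Module.Basis (Fin 2) k ρ.V) : Module.Basis (Fin 2) K (ρ.baseChangeAlong ψ).V :=
  letI : Algebra k K := ψ.toAlgebra
  (Algebra.TensorProduct.basis K b : Module.Basis (Fin 2) K (K ⊗[k] ρ.V))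

theorem toMatrix_bcBasis {k K : Type} [Field k] [Field K] (ψ : k →+* K) (ρ : ResidualGaloisRep k)
    (b : Module.Basis (Fin 2) k ρ.V) (σ : GQ) :
    LinearMap.toMatrix (bcBasis ψ ρ b) (bcBasis ψ ρ b) ((ρ.baseChangeAlong ψ).ρ σ) =
      (LinearMap.toMatrix b b (ρ.ρ σ)).map ψ := by
  letI : Algebra k K := ψ.toAlgebra
  exact LinearMap.toMatrix_baseChange K (ρ.ρ σ) b b

/-- conjugate of a matrix representation by an invertible matrix -/
noncomputable def conjMat (u : (M2 A)ˣ) (r : GQ →* M2 A) : GQ →* M2 A where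
  toFun σ := u * r σ * ((u⁻¹ : (M2 A)ˣ) : M2 A)
  map_one' := by simp
  map_mul' σ τ := by
    rw [map_mul]
    calc (u : M2 A) * (r σ * r τ) * ((u⁻¹ : (M2 A)ˣ) : M2 A)
        = u * r σ * (((u⁻¹ : (M2 A)ˣ) : M2 A) * u) * r τ * ((u⁻¹ : (M2 A)ˣ) : M2 A) := by
          rw [Units.inv_mul, mul_one]; simp only [mul_assoc]
      _ = _ := by simp only [mul_assoc]

theorem conjMat_apply (u : (M2 A)ˣ) (r : GQ →* M2 A) (σ : GQ) :
    conjMat u r σ = u * r σ * ((u⁻¹ : (M2 A)ˣ) : M2 A) := rfl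

theorem mul_eq_conjMat_mul (u : (M2 A)ˣ) (r : GQ →* M2 A) (σ : GQ) :
    (u : M2 A) * r σ = conjMat u r σ * u := by
  rw [conjMat_apply, mul_assoc, Units.inv_mul, mul_one]

omit [IsLocalRing A] in
theorem mul_entries_mem_left (I : Ideal A) (X Y : M2 A) (hX : ∀ i j, X i j ∈ I) (i j : Fin 2) :
    (X * Y) i j ∈ I := by
  rw [Matrix.mul_apply]
  exact Ideal.sum_mem _ fun l _ => Ideal.mul_mem_right _ _ (hX i l)

omit [IsLocalRing A] in
theorem mul_entries_mem_right (I : Ideal A) (X Y : M2 A) (hY : ∀ i j, Y i j ∈ I) (i j : Fin 2) :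
    (X * Y) i j ∈ I := by
  rw [Matrix.mul_apply]
  exact Ideal.sum_mem _ fun l _ => Ideal.mul_mem_left _ _ (hY l j)

theorem MatCont.conj (u : (M2 A)ˣ) {r : GQ →* M2 A} (hr : MatCont r) : MatCont (conjMat u r) := by
  intro n
  obtain ⟨L, hL, h⟩ := hr n
  refine ⟨L, hL, fun σ hσ i j => ?_⟩
  have h1 : conjMat u r σ - 1 = u * (r σ - 1) * ((u⁻¹ : (M2 A)ˣ) : M2 A) := by
    rw [conjMat_apply, mul_sub, sub_mul, mul_one, Units.mul_inv]
  rw [h1]
  exact mul_entries_mem_left _ _ _ (mul_entries_mem_right _ _ _ (h σ hσ)) i j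

/-- if `U * r σ = r' σ * U` for a unit `U`, then `r'` is continuous when `r` is -/
theorem MatCont.of_conj {r r' : GQ →* M2 A} (hr : MatCont r) {U : M2 A} (hU : IsUnit U)
    (h : ∀ σ, U * r σ = r' σ * U) : MatCont r' := by
  obtain ⟨u, rfl⟩ := hU
  have : r' = conjMat u r := by
    ext σ : 1
    rw [conjMat_apply, h σ, mul_assoc, Units.mul_inv, mul_one]
  rw [this]
  exact hr.conj u

end Residual

end Fermat.Agent.S53
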