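import Fermat.Agent.S53.OfMat

set_option autoImplicit false

namespace Fermat.Agent.S53

open IsLocalRing TensorProduct

variable {𝒪 : Type} [CommRing 𝒪] [IsLocalRing 𝒪] {ρbar : ResidualGaloisRep (ResidueField 𝒪)}
variable {A : Type} [CommRing A] [IsLocalRing A] [Algebra 𝒪 A]

/-- `r` reduces to the fixed lift `rt` of `rbar` modulo the maximal ideal. -/
def Lifts (D : NormData 𝒪 ρbar) (r : GQ →* M2 A) : Prop :=
  ∀ σ i j, r σ i j - algebraMap 𝒪 A (D.rt σ i j) ∈ maximalIdeal A

theorem lifts_iff [IsLocalHom (algebraMap 𝒪 A)] (D : NormData 𝒪 ρbar) (r : GQ →* M2 A) :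
    Lifts D r ↔ ∀ σ, (r σ).map (residue A) =
      (D.rbar σ).map (ResidueField.map (algebraMap 𝒪 A)) := by
  have key : ∀ σ i j, r σ i j - algebraMap 𝒪 A (D.rt σ i j) ∈ maximalIdeal A ↔
      residue A (r σ i j) = ResidueField.map (algebraMap 𝒪 A) (D.rbar σ i j) := by
    intro σ i j
    rw [← D.rt_eq σ i j, ResidueField.map_residue, ← residue_eq_zero_iff, map_sub, sub_eq_zero]
  constructor
  · intro h σ
    ext i j
    simpa using (key σ i j).1 (h σ i j)
  · intro h σ i j
    have := congrFun (congrFun (h σ) i) j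
    exact (key σ i j).2 (by simpa using this)

/-- an exact lift of `rt` has residual representation equivalent to `ρbar` -/
theorem residual_isEquiv_of_lifts [IsLocalHom (algebraMap 𝒪 A)] (D : NormData 𝒪 ρbar)
    {r : GQ →* M2 A} (hr : MatCont r) (hl : Lifts D r) :
    (ofMat r hr).residual.IsEquiv
      (ρbar.baseChangeAlong (ResidueField.map (algebraMap 𝒪 A))) := by
  rw [residual_isEquiv_iff _ _ (resBasis r hr) (bcBasis _ ρbar D.b)]
  refine ⟨1, isUnit_one, fun σ => ?_⟩
  rw [toMatrix_resBasis, toMatrix_bcBasis, ← D.rbar_eq, one_mul, mul_one]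
  exact (lifts_iff D r).1 hl σ

/-- lifting an invertible matrix from the residue field -/
theorem exists_unit_lift (U : M2 (ResidueField A)) (hU : IsUnit U) :
    ∃ u : (M2 A)ˣ, ((u : M2 A)).map (residue A) = U := by
  choose f hf using fun i j => residue_surjective (R := A) (U i j)
  have hmap : (Matrix.of f : M2 A).map (residue A) = U := by
    ext i j; simp [hf]
  have hdet : IsUnit (Matrix.of f : M2 A).det := by
    have h1 : residue A (Matrix.of f : M2 A).det = U.det := by
      rw [← hmap]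
      exact RingHom.map_det (residue A) _
    have h2 : IsUnit U.det := (Matrix.isUnit_iff_isUnit_det U).1 hU
    have h3 : IsUnit (residue A (Matrix.of f : M2 A).det) := h1 ▸ h2
    exact (isUnit_map_iff (residue A) _).1 h3
  obtain ⟨u, hu⟩ := (Matrix.isUnit_iff_isUnit_det _).2 hdet
  exact ⟨u, by rw [hu, hmap]⟩

/-- if the residual representation of `ofMat r` is equivalent to `ρbar`, then `r` is conjugate
to an exact lift of `rt`. -/
theorem exists_conj_lifts [IsLocalHom (algebraMap 𝒪 A)] (D : NormData 𝒪 ρbar)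
    {r : GQ →* M2 A} (hr : MatCont r)
    (h : (ofMat r hr).residual.IsEquiv
      (ρbar.baseChangeAlong (ResidueField.map (algebraMap 𝒪 A)))) :
    ∃ u : (M2 A)ˣ, Lifts D (conjMat u r) := by
  rw [residual_isEquiv_iff _ _ (resBasis r hr) (bcBasis _ ρbar D.b)] at h
  obtain ⟨U, hU, hconj⟩ := h
  obtain ⟨u, hu⟩ := exists_unit_lift U hU
  refine ⟨u, (lifts_iff D _).2 fun σ => ?_⟩
  have h1 := hconj σ
  rw [toMatrix_resBasis, toMatrix_bcBasis, ← D.rbar_eq] at h1
  have h2 : (conjMat u r σ).map (residue A) * U = U * (r σ).map (residue A) := by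
    rw [← hu, ← Matrix.map_mul, ← Matrix.map_mul, ← mul_eq_conjMat_mul]
  obtain ⟨v, rfl⟩ := hU
  have h3 : (conjMat u r σ).map (residue A) * (v : M2 (ResidueField A)) =
      (D.rbar σ).map (ResidueField.map (algebraMap 𝒪 A)) * v := by rw [h2, h1]
  exact v.isUnit.mul_right_cancel h3

end Fermat.Agent.S53
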