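import Fermat.Agent.S53.Defs

/-!
# S53 [B2]: rigidity and existence of normalised lifts (2×2 matrix algebra over local rings)
-/

set_option autoImplicit false

namespace Fermat.Agent.S53

open IsLocalRing Polynomial

section Lin

variable {𝒪 : Type} [CommRing 𝒪]

theorem lin_apply {A : Type} [CommRing A] [Algebra 𝒪 A] (r : GQ → M2 A) (e : GQ →₀ 𝒪)
    (i j : Fin 2) : lin 𝒪 r e i j = e.sum fun g c => c • r g i j := by
  simp [lin, Finsupp.linearCombination_apply, Finsupp.sum, Matrix.sum_apply]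

/-- `lin` commutes with `𝒪`-algebra homomorphisms applied entrywise. -/
theorem lin_map {A B : Type} [CommRing A] [Algebra 𝒪 A] [CommRing B] [Algebra 𝒪 B]
    (φ : A →ₐ[𝒪] B) (r : GQ → M2 A) (e : GQ →₀ 𝒪) (i j : Fin 2) :
    lin 𝒪 (fun σ => (r σ).map φ) e i j = φ (lin 𝒪 r e i j) := by
  rw [lin_apply, lin_apply, Finsupp.sum, Finsupp.sum, map_sum]
  refine Finset.sum_congr rfl fun g _ => ?_
  rw [Matrix.map_apply, map_smul]

/-- `lin` commutes with two-sided multiplication. -/
theorem lin_conj {A : Type} [CommRing A] [Algebra 𝒪 A] (U V : M2 A) (r : GQ → M2 A)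
    (e : GQ →₀ 𝒪) : lin 𝒪 (fun σ => U * r σ * V) e = U * lin 𝒪 r e * V := by
  simp only [lin, Finsupp.linearCombination_apply, Finsupp.sum, Finset.mul_sum, Finset.sum_mul,
    Matrix.mul_smul, Matrix.smul_mul]

end Lin

section Rigid

variable {𝒪 : Type} [CommRing 𝒪] [IsLocalRing 𝒪] {ρbar : ResidualGaloisRep (ResidueField 𝒪)}
variable {A : Type} [CommRing A] [IsLocalRing A] [Algebra 𝒪 A] [IsLocalHom (algebraMap 𝒪 A)]

/-- If `r` lifts `rt` entrywise then `lin r e` reduces to `E₁₁`. -/
theorem residue_lin (D : NormData 𝒪 ρbar) (r : GQ → M2 A)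
    (hr : ∀ σ i j, r σ i j - algebraMap 𝒪 A (D.rt σ i j) ∈ maximalIdeal A) (i j : Fin 2) :
    residue A (lin 𝒪 r D.e i j) =
      ResidueField.map (algebraMap 𝒪 A) ((!![1, 0; 0, 0] : M2 (ResidueField 𝒪)) i j) := by
  rw [← D.he, lin_apply, lin_apply, Finsupp.sum, Finsupp.sum, map_sum, map_sum]
  refine Finset.sum_congr rfl fun g _ => ?_
  have h1 : residue A (r g i j) = residue A (algebraMap 𝒪 A (D.rt g i j)) := by
    rw [← sub_eq_zero, ← map_sub, residue_eq_zero_iff]
    exact hr g i j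
  rw [Algebra.smul_def, Algebra.smul_def, map_mul, map_mul, h1, ← D.rt_eq]
  rfl

theorem lin_00_sub_one_mem (D : NormData 𝒪 ρbar) (r : GQ → M2 A)
    (hr : ∀ σ i j, r σ i j - algebraMap 𝒪 A (D.rt σ i j) ∈ maximalIdeal A) :
    lin 𝒪 r D.e 0 0 - 1 ∈ maximalIdeal A := by
  rw [← residue_eq_zero_iff, map_sub, residue_lin D r hr]
  simp

theorem lin_mem (D : NormData 𝒪 ρbar) (r : GQ → M2 A)
    (hr : ∀ σ i j, r σ i j - algebraMap 𝒪 A (D.rt σ i j) ∈ maximalIdeal A) (i j : Fin 2)
    (hij : ¬ (i = 0 ∧ j = 0)) :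
    lin 𝒪 r D.e i j ∈ maximalIdeal A := by
  rw [← residue_eq_zero_iff, residue_lin D r hr]
  fin_cases i <;> fin_cases j <;> simp at hij ⊢

theorem g1_10_sub_one_mem (D : NormData 𝒪 ρbar) (r : GQ → M2 A)
    (hr : ∀ σ i j, r σ i j - algebraMap 𝒪 A (D.rt σ i j) ∈ maximalIdeal A) :
    r D.g1 1 0 - 1 ∈ maximalIdeal A := by
  have h1 := hr D.g1 1 0
  have h2 : algebraMap 𝒪 A (D.rt D.g1 1 0) - 1 ∈ maximalIdeal A := by
    rw [← residue_eq_zero_iff, map_sub, map_one, sub_eq_zero]
    have : residue A (algebraMap 𝒪 A (D.rt D.g1 1 0)) =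
        ResidueField.map (algebraMap 𝒪 A) (residue 𝒪 (D.rt D.g1 1 0)) := rfl
    rw [this, D.rt_eq, D.hg1, map_one]
  have := Ideal.add_mem _ h1 h2
  simpa using this

end Rigid

section Uniq

variable {𝒪 : Type} [CommRing 𝒪] [IsLocalRing 𝒪] {ρbar : ResidualGaloisRep (ResidueField 𝒪)}
variable {A : Type} [CommRing A] [IsLocalRing A] [Algebra 𝒪 A] [IsLocalHom (algebraMap 𝒪 A)]

theorem isUnit_of_sub_one_mem {a : A} (h : a - 1 ∈ maximalIdeal A) : IsUnit a := by
  by_contra ha
  have h1 : a ∈ maximalIdeal A := (mem_maximalIdeal a).mpr ha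
  have h2 : (1 : A) ∈ maximalIdeal A := by
    have := Ideal.sub_mem _ h1 h
    rwa [sub_sub_cancel] at this
  exact (Ideal.ne_top_iff_one _).mp (maximalIdeal.isMaximal A).ne_top h2

/-- Rigidity: two normalised lifts conjugate by an invertible matrix are equal. -/
theorem IsNormLift.eq_of_conj {D : NormData 𝒪 ρbar} {r r' : GQ →* M2 A}
    (h : IsNormLift D r) (h' : IsNormLift D r') (U : M2 A) (hU : IsUnit U)
    (hconj : ∀ s, U * r s = r' s * U) : r = r' := by
  -- intertwining of `lin`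
  have hE : U * lin 𝒪 (fun σ => r σ) D.e = lin 𝒪 (fun σ => r' σ) D.e * U := by
    have h1 := lin_conj (𝒪 := 𝒪) U 1 (fun σ => r σ) D.e
    have h2 := lin_conj (𝒪 := 𝒪) 1 U (fun σ => r' σ) D.e
    simp only [mul_one, one_mul] at h1 h2
    rw [← h1, ← h2]
    congr 1
    funext σ
    exact hconj σ
  set E := lin 𝒪 (fun σ => r σ) D.e with hEdef
  set E' := lin 𝒪 (fun σ => r' σ) D.e with hE'def
  have a1 : E 0 0 - 1 ∈ maximalIdeal A := lin_00_sub_one_mem D _ h.lifts
  have a2 : E 1 1 ∈ maximalIdeal A := lin_mem D _ h.lifts 1 1 (by simp)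
  have b1 : E' 0 0 - 1 ∈ maximalIdeal A := lin_00_sub_one_mem D _ h'.lifts
  have b2 : E' 1 1 ∈ maximalIdeal A := lin_mem D _ h'.lifts 1 1 (by simp)
  have e01 : E 0 1 = 0 := h.diag01
  have e10 : E 1 0 = 0 := h.diag10
  have e01' : E' 0 1 = 0 := h'.diag01
  have e10' : E' 1 0 = 0 := h'.diag10
  -- off-diagonal entries of `U` vanish
  have u01 : U 0 1 = 0 := by
    have := congrFun (congrFun hE 0) 1
    simp only [Matrix.mul_apply, Fin.sum_univ_two, e01, e01', mul_zero, zero_mul, zero_add,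
      add_zero] at this
    have hu : IsUnit (E' 0 0 - E 1 1) := isUnit_of_sub_one_mem (by
      have := Ideal.sub_mem _ b1 a2
      convert this using 1; ring)
    have h0 : (E' 0 0 - E 1 1) * U 0 1 = 0 := by linear_combination -this
    exact (hu.mul_right_eq_zero).mp h0
  have u10 : U 1 0 = 0 := by
    have := congrFun (congrFun hE 1) 0
    simp only [Matrix.mul_apply, Fin.sum_univ_two, e10, e10', mul_zero, zero_mul, zero_add,
      add_zero] at this
    have hu : IsUnit (E 0 0 - E' 1 1) := isUnit_of_sub_one_mem (by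
      have := Ideal.sub_mem _ a1 b2
      convert this using 1; ring)
    have h0 : (E 0 0 - E' 1 1) * U 1 0 = 0 := by linear_combination this
    exact (hu.mul_right_eq_zero).mp h0
  -- diagonal entries agree
  have u11 : U 1 1 = U 0 0 := by
    have := congrFun (congrFun (hconj D.g1) 1) 0
    simp only [Matrix.mul_apply, Fin.sum_univ_two, u10, h.one10, h'.one10, mul_zero,
      zero_mul, zero_add, add_zero, mul_one, one_mul] at this
    exact this
  have hUs : U = U 0 0 • (1 : M2 A) := by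
    ext i j
    fin_cases i <;> fin_cases j <;> simp [u01, u10, u11]
  have hu00 : IsUnit (U 0 0) := by
    have hdet := (Matrix.isUnit_iff_isUnit_det U).mp hU
    rw [Matrix.det_fin_two, u01, u10, u11, mul_zero, sub_zero] at hdet
    exact isUnit_of_mul_isUnit_left hdet
  ext s i j
  have := congrFun (congrFun (hconj s) i) j
  rw [hUs] at this
  simp only [Matrix.smul_mul, Matrix.mul_smul, one_mul, mul_one, Matrix.smul_apply,
    smul_eq_mul] at this
  exact hu00.mul_left_cancel this

end Uniq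

section Conj

variable {A : Type} [CommRing A]

/-- Conjugate a matrix representation by an invertible matrix. -/
noncomputable def conjPair (V V' : M2 A) (h : V * V' = 1) (r : GQ →* M2 A) : GQ →* M2 A where
  toFun s := V' * r s * V
  map_one' := by
    rw [map_one, mul_one]
    exact mul_eq_one_comm.mp h
  map_mul' s t := by
    rw [map_mul]
    calc V' * (r s * r t) * V = V' * r s * 1 * r t * V := by simp only [mul_one, mul_assoc]
      _ = V' * r s * V * (V' * r t * V) := by rw [← h]; simp only [mul_assoc]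

@[simp] theorem conjPair_apply (V V' : M2 A) (h : V * V' = 1) (r : GQ →* M2 A) (s : GQ) :
    conjPair V V' h r s = V' * r s * V := rfl

theorem conjPair_intertwine (V V' : M2 A) (h : V * V' = 1) (r : GQ →* M2 A) (s : GQ) :
    V' * r s = conjPair V V' h r s * V' := by
  rw [conjPair_apply, mul_assoc, h, mul_one]

variable [IsLocalRing A]

theorem conjPair_cont (V V' : M2 A) (h : V * V' = 1) (r : GQ →* M2 A) (hr : MatCont r) :
    MatCont (conjPair V V' h r) := by
  intro n
  obtain ⟨L, hL, hσ⟩ := hr n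
  refine ⟨L, hL, fun σ hfix i j => ?_⟩
  have h1 : conjPair V V' h r σ - 1 = V' * (r σ - 1) * V := by
    rw [conjPair_apply, mul_sub, sub_mul, mul_one, mul_eq_one_comm.mp h]
  rw [h1]
  simp only [Matrix.mul_apply, Fin.sum_univ_two]
  have := hσ σ hfix
  refine Ideal.add_mem _ (Ideal.mul_mem_right _ _ (Ideal.add_mem _ ?_ ?_))
    (Ideal.mul_mem_right _ _ (Ideal.add_mem _ ?_ ?_)) <;>
  exact Ideal.mul_mem_left _ _ (this _ _)

/-- Entrywise congruence to the identity modulo the maximal ideal. -/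
def CongOne (V : M2 A) : Prop := (residue A).mapMatrix V = 1

theorem CongOne.of_mul_eq_one {V V' : M2 A} (hV : CongOne V) (h : V * V' = 1) : CongOne V' := by
  have := congrArg (residue A).mapMatrix h
  rw [map_mul, map_one, hV, one_mul] at this
  exact this

theorem conjPair_residue (V V' : M2 A) (h : V * V' = 1) (hV : CongOne V) (X : M2 A) (i j : Fin 2) :
    residue A ((V' * X * V) i j) = residue A (X i j) := by
  have h1 : (residue A).mapMatrix (V' * X * V) = (residue A).mapMatrix X := by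
    rw [map_mul, map_mul, hV, hV.of_mul_eq_one h, one_mul, mul_one]
  exact congrFun (congrFun h1 i) j

theorem conjPair_lifts {𝒪 : Type} [CommRing 𝒪] [Algebra 𝒪 A] (rt : GQ → M2 𝒪)
    (V V' : M2 A) (h : V * V' = 1) (hV : CongOne V) (r : GQ →* M2 A)
    (hr : ∀ σ i j, r σ i j - algebraMap 𝒪 A (rt σ i j) ∈ maximalIdeal A) (σ : GQ) (i j : Fin 2) :
    conjPair V V' h r σ i j - algebraMap 𝒪 A (rt σ i j) ∈ maximalIdeal A := by
  have := hr σ i j
  rw [← residue_eq_zero_iff, map_sub] at this ⊢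
  rw [conjPair_apply, conjPair_residue V V' h hV]
  exact this

end Conj

section Diag

variable {A : Type} [CommRing A] [IsLocalRing A] [IsAdicComplete (maximalIdeal A) A]

/-- Hensel: the characteristic polynomial of a matrix `≡ E₁₁` has a root `≡ 1`. -/
theorem exists_root_near_one (t δ : A) (ht : t - 1 ∈ maximalIdeal A) (hδ : δ ∈ maximalIdeal A) :
    ∃ l : A, l - 1 ∈ maximalIdeal A ∧ l ^ 2 - t * l + δ = 0 := by
  have hens : HenselianRing A (maximalIdeal A) := inferInstance
  obtain ⟨l, hl, hl1⟩ := hens.is_henselian (X ^ 2 - C t * X + C δ) (by monicity!) 1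
    (by
      simp only [eval_add, eval_sub, eval_pow, eval_X, eval_mul, eval_C, one_pow, mul_one]
      have := Ideal.sub_mem _ hδ ht
      convert this using 1; ring)
    (by
      simp only [derivative_add, derivative_sub, derivative_pow, derivative_X, derivative_mul,
        derivative_C, eval_add, eval_sub, eval_pow, eval_X, eval_mul, eval_C]
      apply IsUnit.map
      apply isUnit_of_sub_one_mem
      have := Ideal.neg_mem_iff _ |>.mpr ht
      convert this using 1
      simp; ring)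
  refine ⟨l, hl1, ?_⟩
  simpa [IsRoot.def] using hl

/-- Diagonalisation of a matrix `≡ E₁₁` by a matrix `≡ 1`. -/
theorem exists_diagonalise (E : M2 A) (h00 : E 0 0 - 1 ∈ maximalIdeal A)
    (h01 : E 0 1 ∈ maximalIdeal A) (h10 : E 1 0 ∈ maximalIdeal A) (h11 : E 1 1 ∈ maximalIdeal A) :
    ∃ W W' : M2 A, W * W' = 1 ∧ CongOne W ∧ (W' * E * W) 0 1 = 0 ∧ (W' * E * W) 1 0 = 0 := by
  set a := E 0 0 with ha
  set b := E 0 1 with hb
  set c := E 1 0 with hc
  set d := E 1 1 with hd
  obtain ⟨l, hl1, hl⟩ := exists_root_near_one (a + d) (a * d - b * c)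
    (by have := Ideal.add_mem _ h00 h11; convert this using 1; ring)
    (Ideal.sub_mem _ (Ideal.mul_mem_left _ _ h11) (Ideal.mul_mem_left _ _ h10))
  have hu : IsUnit (l - d) := isUnit_of_sub_one_mem (by
    have := Ideal.sub_mem _ hl1 h11; convert this using 1; ring)
  obtain ⟨v, hv⟩ := hu.exists_right_inv
  set W : M2 A := !![1, -b * v; c * v, 1] with hW
  set Λ : M2 A := !![l, 0; 0, a + d - l] with hΛ
  have hEW : E * W = W * Λ := by
    have hE : E = !![a, b; c, d] := by
      ext i j; fin_cases i <;> fin_cases j <;> rfl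
    rw [hE, hW, hΛ]
    ext i j
    fin_cases i <;> fin_cases j <;>
      simp only [Matrix.mul_apply, Fin.sum_univ_two, Matrix.of_apply, Matrix.cons_val', 
        Matrix.cons_val_zero, Matrix.cons_val_one, Matrix.cons_val_fin_one, Fin.zero_eta, 
        Fin.mk_one, Fin.isValue]
    · linear_combination (l - a) * hv - v * hl
    · linear_combination (-b) * hv
    · linear_combination (-c) * hv
    · linear_combination (a - l) * hv + v * hl
  have hdet : IsUnit W.det := by
    rw [hW, Matrix.det_fin_two_of]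
    apply isUnit_of_sub_one_mem
    have : (1 : A) * 1 - -b * v * (c * v) - 1 = b * (v * c * v) := by ring
    rw [this]
    exact Ideal.mul_mem_right _ _ h01
  have hWW' : W * W⁻¹ = 1 := Matrix.mul_nonsing_inv W hdet
  have hW'W : W⁻¹ * W = 1 := Matrix.nonsing_inv_mul W hdet
  refine ⟨W, W⁻¹, hWW', ?_, ?_, ?_⟩
  · ext i j
    fin_cases i <;> fin_cases j <;> simp [hW, RingHom.mapMatrix_apply, Matrix.map_apply]
    · left; exact (mem_maximalIdeal _).mp h01
    · left; exact (mem_maximalIdeal _).mp h10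
  · rw [mul_assoc, hEW, ← mul_assoc, hW'W, one_mul, hΛ]; simp
  · rw [mul_assoc, hEW, ← mul_assoc, hW'W, one_mul, hΛ]; simp

end Diag

section Exist

variable {𝒪 : Type} [CommRing 𝒪] [IsLocalRing 𝒪] {ρbar : ResidualGaloisRep (ResidueField 𝒪)}
variable {A : Type} [CommRing A] [IsLocalRing A] [Algebra 𝒪 A] [IsLocalHom (algebraMap 𝒪 A)]

/-- Existence of the normal form: every continuous matrix lift over a complete local ring is
conjugate to a normalised one. -/
theorem exists_isNormLift [IsAdicComplete (maximalIdeal A) A] (D : NormData 𝒪 ρbar)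
    (r : GQ →* M2 A) (hc : MatCont r)
    (hl : ∀ s i j, r s i j - algebraMap 𝒪 A (D.rt s i j) ∈ maximalIdeal A) :
    ∃ (U : M2 A) (r' : GQ →* M2 A), IsUnit U ∧ IsNormLift D r' ∧ ∀ s, U * r s = r' s * U := by
  set E := lin 𝒪 (fun σ => r σ) D.e with hE
  obtain ⟨W, W', hWW', hW1, h01, h10⟩ := exists_diagonalise E (lin_00_sub_one_mem D _ hl)
    (lin_mem D _ hl 0 1 (by simp)) (lin_mem D _ hl 1 0 (by simp)) (lin_mem D _ hl 1 1 (by simp))
  set r1 := conjPair W W' hWW' r with hr1
  have hc1 : MatCont r1 := conjPair_cont W W' hWW' r hc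
  have hl1 : ∀ s i j, r1 s i j - algebraMap 𝒪 A (D.rt s i j) ∈ maximalIdeal A :=
    conjPair_lifts D.rt W W' hWW' hW1 r hl
  have hE1 : lin 𝒪 (fun σ => r1 σ) D.e = W' * E * W := lin_conj W' W (fun σ => r σ) D.e
  set γ := r1 D.g1 1 0 with hγ
  have hγ1 : γ - 1 ∈ maximalIdeal A := g1_10_sub_one_mem D (fun σ => r1 σ) hl1
  obtain ⟨γ', hγ'⟩ := (isUnit_of_sub_one_mem hγ1).exists_right_inv
  set T : M2 A := !![1, 0; 0, γ] with hT
  set T' : M2 A := !![1, 0; 0, γ'] with hT'
  have hTT' : T * T' = 1 := by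
    rw [hT, hT']
    ext i j
    fin_cases i <;> fin_cases j <;> simp [Matrix.mul_apply, Fin.sum_univ_two, hγ']
  have hT1 : CongOne T := by
    ext i j
    fin_cases i <;> fin_cases j <;> simp [hT, RingHom.mapMatrix_apply, Matrix.map_apply]
    rw [← sub_eq_zero, ← map_one (residue A), ← map_sub, residue_eq_zero_iff]
    exact hγ1
  set r2 := conjPair T T' hTT' r1 with hr2
  have hE2 : lin 𝒪 (fun σ => r2 σ) D.e = T' * (W' * E * W) * T := by
    rw [← hE1]; exact lin_conj T' T (fun σ => r1 σ) D.e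
  refine ⟨T' * W', r2, ?_, ⟨conjPair_cont T T' hTT' r1 hc1,
    conjPair_lifts D.rt T T' hTT' hT1 r1 hl1, ?_, ?_, ?_⟩, fun s => ?_⟩
  · refine IsUnit.of_mul_eq_one (W * T) ?_
    calc T' * W' * (W * T) = T' * (W' * W) * T := by simp only [mul_assoc]
      _ = 1 := by rw [mul_eq_one_comm.mp hWW', mul_one, mul_eq_one_comm.mp hTT']
  · rw [hE2, hT, hT']
    generalize W' * E * W = Y at h01 h10
    simp only [Matrix.mul_apply, Fin.sum_univ_two, Matrix.of_apply, Matrix.cons_val',
      Matrix.cons_val_zero, Matrix.cons_val_one, Matrix.cons_val_fin_one, h01]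
    simp
  · rw [hE2, hT, hT']
    generalize W' * E * W = Y at h01 h10
    simp only [Matrix.mul_apply, Fin.sum_univ_two, Matrix.of_apply, Matrix.cons_val',
      Matrix.cons_val_zero, Matrix.cons_val_one, Matrix.cons_val_fin_one, h10]
    simp
  · rw [hr2, conjPair_apply, hT, hT']
    simp only [Matrix.mul_apply, Fin.sum_univ_two, Matrix.of_apply, Matrix.cons_val',
      Matrix.cons_val_zero, Matrix.cons_val_one, Matrix.cons_val_fin_one]
    simp only [zero_mul, zero_add, mul_one, mul_zero, add_zero]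
    rw [← hγ, mul_comm]; exact hγ'
  · rw [mul_assoc, conjPair_intertwine W W' hWW' r s, ← mul_assoc,
      conjPair_intertwine T T' hTT' r1 s, mul_assoc]

end Exist

section Functorial

variable {𝒪 : Type} [CommRing 𝒪] [IsLocalRing 𝒪] {ρbar : ResidualGaloisRep (ResidueField 𝒪)}
variable {A : Type} [CommRing A] [IsLocalRing A] [Algebra 𝒪 A]
variable {B : Type} [CommRing B] [IsLocalRing B] [Algebra 𝒪 B]

theorem mapMat_sub_one_apply (φ : A →+* B) (r : GQ →* M2 A) (σ : GQ) (i j : Fin 2) :
    (mapMat φ r σ - 1) i j = φ ((r σ - 1) i j) := by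
  rw [Matrix.sub_apply, Matrix.sub_apply, mapMat_apply, map_sub]
  congr 1
  fin_cases i <;> fin_cases j <;> simp

theorem MatCont.mapMat (φ : A →+* B) [IsLocalHom φ] {r : GQ →* M2 A} (hr : MatCont r) :
    MatCont (mapMat φ r) := by
  intro n
  obtain ⟨L, hL, h⟩ := hr n
  refine ⟨L, hL, fun σ hσ i j => ?_⟩
  rw [mapMat_sub_one_apply]
  have hle : (maximalIdeal A ^ n).map φ ≤ maximalIdeal B ^ n := by
    rw [Ideal.map_pow]
    exact Ideal.pow_right_mono (Ideal.map_le_iff_le_comap.mpr fun a ha =>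
      Ideal.mem_comap.mpr (map_nonunit φ a ha)) n
  exact hle (Ideal.mem_map_of_mem φ (h σ hσ i j))

theorem lin_mapMat (φ : A →ₐ[𝒪] B) (r : GQ →* M2 A) (e : GQ →₀ 𝒪) (i j : Fin 2) :
    lin 𝒪 (fun σ => mapMat (φ : A →+* B) r σ) e i j = φ (lin 𝒪 (fun σ => r σ) e i j) :=
  lin_map φ (fun σ => r σ) e i j

/-- Normalised lifts are preserved by local `𝒪`-algebra homomorphisms. -/
theorem IsNormLift.mapMat {D : NormData 𝒪 ρbar} (φ : A →ₐ[𝒪] B) [IsLocalHom (φ : A →+* B)]
    {r : GQ →* M2 A} (h : IsNormLift D r) : IsNormLift D (mapMat (φ : A →+* B) r) where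
  cont := h.cont.mapMat (φ : A →+* B)
  lifts σ i j := by
    have h1 : Fermat.Agent.S53.mapMat (φ : A →+* B) r σ i j - algebraMap 𝒪 B (D.rt σ i j) =
        (φ : A →+* B) (r σ i j - algebraMap 𝒪 A (D.rt σ i j)) := by
      rw [map_sub, mapMat_apply]
      simp
    rw [h1]
    exact map_nonunit (φ : A →+* B) _ (h.lifts σ i j)
  diag01 := by rw [lin_mapMat, h.diag01, map_zero]
  diag10 := by rw [lin_mapMat, h.diag10, map_zero]
  one10 := by rw [mapMat_apply, h.one10]; simp

/-- Normalised lifts are reflected by injective `𝒪`-algebra homomorphisms into a local ring with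
nilpotent maximal ideal. -/
theorem IsNormLift.of_mapMat_injective {D : NormData 𝒪 ρbar} (φ : A →ₐ[𝒪] B)
    (hφ : Function.Injective φ) (hB : IsNilpotent (maximalIdeal B))
    {r : GQ →* M2 A} (h : IsNormLift D (Fermat.Agent.S53.mapMat (φ : A →+* B) r)) :
    IsNormLift D r where
  cont := by
    obtain ⟨N, hN⟩ := hB
    obtain ⟨L, hL, hσ⟩ := h.cont N
    intro n
    refine ⟨L, hL, fun σ hfix i j => ?_⟩
    have h1 := hσ σ hfix i j
    rw [hN, mapMat_sub_one_apply] at h1
    have h2 : (r σ - 1) i j = 0 := hφ (by simpa using h1)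
    rw [h2]
    exact zero_mem _
  lifts σ i j := by
    have h1 : Fermat.Agent.S53.mapMat (φ : A →+* B) r σ i j - algebraMap 𝒪 B (D.rt σ i j) =
        (φ : A →+* B) (r σ i j - algebraMap 𝒪 A (D.rt σ i j)) := by
      rw [map_sub, mapMat_apply]
      simp
    have h2 := h.lifts σ i j
    rw [h1] at h2
    rw [mem_maximalIdeal, mem_nonunits_iff] at h2 ⊢
    exact fun hu => h2 (hu.map _)
  diag01 := hφ (by rw [← lin_mapMat, h.diag01, map_zero])
  diag10 := hφ (by rw [← lin_mapMat, h.diag10, map_zero])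
  one10 := hφ (by
    have := h.one10
    rw [mapMat_apply] at this
    rw [map_one]; exact this)

theorem isNilpotent_maximalIdeal_of_test (hB : GaloisRep.IsArtinianTestAlgebra 𝒪 B) :
    IsNilpotent (maximalIdeal B) := by
  haveI := hB.isArtinian
  exact (isArtinianRing_iff_isNilpotent_maximalIdeal B).mp inferInstance

theorem isAdicComplete_of_test (hB : GaloisRep.IsArtinianTestAlgebra 𝒪 B) :
    IsAdicComplete (maximalIdeal B) B := by
  haveI := hB.isArtinian
  infer_instance

end Functorial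

end Fermat.Agent.S53
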