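import Fermat.Agent.S53.FunctorAxioms
import Fermat.Agent.S53.Rigid
import Fermat.Agent.S53.TestAlgebra

/-!
# S53: the field `tangent_finite` of `IsPointFunctor` for `FPoint D 𝒟`
-/

set_option autoImplicit false

namespace Fermat.Agent.S53

open IsLocalRing GaloisRep

variable {𝒪 : Type} [CommRing 𝒪] [IsLocalRing 𝒪] {ρbar : ResidualGaloisRep (ResidueField 𝒪)}
  {𝒟 : ∀ ⦃A : Type⦄ [CommRing A] [IsLocalRing A] [Algebra 𝒪 A], GaloisRepAdic A → Prop}

/-- Two points of `FPoint` whose representations are equivalent are equal. -/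
theorem IsNormLift.eq_of_isEquiv {D : NormData 𝒪 ρbar} {A : Type} [CommRing A] [IsLocalRing A]
    [Algebra 𝒪 A] [IsLocalHom (algebraMap 𝒪 A)] {r r' : GQ →* M2 A}
    (h : IsNormLift D r) (h' : IsNormLift D r')
    (he : (ofMat r h.cont).IsEquiv (ofMat r' h'.cont)) : r = r' := by
  obtain ⟨U, hU, hc⟩ := (ofMat_isEquiv_iff h.cont h'.cont).mp he
  exact h.eq_of_conj h' U hU hc

theorem residueField_map_dualAlg :
    letI := dualAlg 𝒪
    haveI := (isArtinianTestAlgebra_dualNumber 𝒪).isLocalHom
    ResidueField.map (algebraMap 𝒪 (DualNumber (ResidueField 𝒪))) =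
      (IsLocalRing.residue (DualNumber (ResidueField 𝒪))).comp
        (algebraMap (ResidueField 𝒪) (DualNumber (ResidueField 𝒪))) := by
  letI := dualAlg 𝒪
  haveI := (isArtinianTestAlgebra_dualNumber 𝒪).isLocalHom
  ext x
  obtain ⟨c, rfl⟩ := residue_surjective x
  rfl

theorem FPoint.tangent_finite (D : NormData 𝒪 ρbar) (hfin : TangentFinite 𝒪 ρbar 𝒟) :
    letI := dualAlg 𝒪
    Set.Finite {x : XG → DualNumber (ResidueField 𝒪) | FPoint D 𝒟 x} := by
  letI := dualAlg 𝒪
  haveI := (isArtinianTestAlgebra_dualNumber 𝒪).isLocalHom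
  delta TangentFinite at hfin
  have hres : ∀ (r : GQ →* M2 (DualNumber (ResidueField 𝒪))) (h : IsNormLift D r),
      (ofMat r h.cont).residual.IsEquiv
        (ρbar.baseChangeAlong ((IsLocalRing.residue (DualNumber (ResidueField 𝒪))).comp
        (algebraMap (ResidueField 𝒪) (DualNumber (ResidueField 𝒪))))) := by
    intro r h
    have := residual_isEquiv_of_lifts D h.cont h.lifts
    rwa [residueField_map_dualAlg] at this
  rw [← Set.finite_coe_iff]
  refine @Finite.of_injective _ _ hfin
    (fun x : {x : XG → DualNumber (ResidueField 𝒪) | FPoint D 𝒟 x} =>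
      Quotient.mk _ ⟨ofMat x.2.choose x.2.choose_spec.choose.cont,
        x.2.choose_spec.choose_spec.2, hres _ x.2.choose_spec.choose⟩) ?_
  intro x y hxy
  have h1 := Quotient.exact hxy
  have h2 : (ofMat x.2.choose x.2.choose_spec.choose.cont).IsEquiv
      (ofMat y.2.choose y.2.choose_spec.choose.cont) := h1
  have h3 := IsNormLift.eq_of_isEquiv x.2.choose_spec.choose y.2.choose_spec.choose h2
  apply Subtype.ext
  rw [← x.2.choose_spec.choose_spec.1, ← y.2.choose_spec.choose_spec.1, h3]

end Fermat.Agent.S53
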